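import Fermat.Agent.S32.Basis

/-!
# S32 / F3b : Hopf orders pass to (equivariant) quotients

`φ : X → X''` surjective, additive, equivariant, `K := ker φ`.
`H'' := H.comap (pull φ) = {a'' | a'' ∘ φ ∈ H}`.

* `eqv`, `counit` : immediate (`φ` surjective).
* `fg` : `pull φ` is injective, so `H''` is isomorphic to a submodule of the noetherian module `H`
  (`ℤ_(p)` is a PID, `S19.isPrincipalIdealRing_Rl`).
* `span` : for `a ∈ H` put `Π a x := ∑ κ ∈ K, a (x + κ)`.  With `a (x + y) = ∑ u i x * v i y` we get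
  `Π a = ∑ s i • u i`, `s i := ∑ κ ∈ K, v i κ`, which is fixed by `Gam` (`K` is stable, `v i`
  equivariant), so `s i ∈ ℚ` (`S19.exists_rat_of_fixed_artin`); a non zero integer `d` clears the
  denominators: `d • Π a ∈ H`.  It is `K`-invariant, so it is `a'' ∘ φ` with `a'' ∈ H''`.
  `Π` is `ℚ̄`-linear and maps `X → ℚ̄` ONTO the `K`-invariant functions, and `H` spans.
* `comul` : let `a = a'' ∘ φ ∈ H`, `b` the basis of `H` (`IsOrder.exists_basis`).
  Write `a (x + y) = ∑ j, A j x * b j y` with `A j ∈ H` (expand the `v i` in the basis).  Invariance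
  in `x` and independence of the `b j` over `ℚ̄`: every `A j` is `K`-invariant.
  `H''` is again f.g. torsion free: basis `d l`, independent over `ℚ̄` (Artin,
  `S19.linearIndependent_of_isEqv_Rl`).  Expand `A j = ∑ e j l • d l`:
  `a (x + y) = ∑ l, d l x * B l y`, `B l := ∑ j, e j l • b j ∈ H`; invariance in `y` and independence
  of the `d l`: every `B l` is `K`-invariant.  Descend `B l` to `X''`.
-/

set_option autoImplicit false
set_option linter.unusedSectionVars false

namespace Fermat.Agent.S32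

open Fermat.Agent.S19 (Qb Gam Rl IsEqv)

namespace QuotAux

/-- pull back of functions. -/
def pull (p : ℕ) {X X'' : Type} (φ : X → X'') : (X'' → Qb) →ₐ[Rl p] (X → Qb) where
  toFun a := fun x => a (φ x)
  map_one' := rfl
  map_mul' _ _ := rfl
  map_zero' := rfl
  map_add' _ _ := rfl
  commutes' _ := rfl

@[simp] theorem pull_apply (p : ℕ) {X X'' : Type} (φ : X → X'') (a : X'' → Qb) (x : X) :
    pull p φ a x = a (φ x) := rfl

theorem pull_injective (p : ℕ) {X X'' : Type} {φ : X → X''} (hφ : Function.Surjective φ) :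
    Function.Injective (pull p φ) := by
  intro a b hab
  funext y
  obtain ⟨x, rfl⟩ := hφ y
  exact congrFun hab x

variable {p : ℕ} [Fact p.Prime]

/-- a finitely generated subalgebra of equivariant functions is free, and a basis of it is linearly
independent over `ℚ̄`. -/
theorem exists_basis_of_fg {G : Type} [MulAction Gam G] (M : Subalgebra (Rl p) (G → Qb))
    (hfg : M.toSubmodule.FG) (heqv : ∀ a ∈ M, IsEqv a) :
    ∃ (n : ℕ) (b : Module.Basis (Fin n) (Rl p) M),
      LinearIndependent Qb (fun i => ((b i : M) : G → Qb)) := by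
  have : Module.Finite (Rl p) M := Module.Finite.iff_fg.mpr hfg
  have : IsPrincipalIdealRing (Rl p) := Fermat.Agent.S19.isPrincipalIdealRing_Rl p
  have : Module.IsTorsionFree (Rl p) M := by
    refine Module.IsTorsionFree.of_smul_eq_zero fun r m hrm => ?_
    by_cases hr : r = 0
    · exact Or.inl hr
    · right
      apply Subtype.ext
      funext y
      have h1 : (r • (m : G → Qb)) y = 0 := congrFun (congrArg Subtype.val hrm) y
      have h2 : algebraMap (Rl p) Qb r * (m : G → Qb) y = 0 := by
        rw [← h1, Pi.smul_apply, Algebra.smul_def]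
      rcases mul_eq_zero.mp h2 with h3 | h3
      · exfalso
        apply hr
        have h4 : algebraMap ℚ Qb (r : ℚ) = 0 := h3
        exact Subtype.ext ((map_eq_zero _).mp h4)
      · exact h3
  have : Module.Free (Rl p) M := Module.free_of_finite_type_torsion_free'
  let b := Module.finBasis (Rl p) M
  refine ⟨_, b, Fermat.Agent.S19.linearIndependent_of_isEqv_Rl p _ (fun i => heqv _ (b i).2) ?_⟩
  exact b.linearIndependent.map' M.val.toLinearMap
    (LinearMap.ker_eq_bot.mpr Subtype.val_injective)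

/-- expansion in a basis, pointwise. -/
theorem eq_sum_repr {G : Type} (M : Subalgebra (Rl p) (G → Qb)) {n : ℕ}
    (b : Module.Basis (Fin n) (Rl p) M) {m : G → Qb} (hm : m ∈ M) (y : G) :
    m y = ∑ i, algebraMap (Rl p) Qb (b.repr ⟨m, hm⟩ i) * ((b i : M) : G → Qb) y := by
  have h1 := congrArg (Subtype.val) (b.sum_repr ⟨m, hm⟩)
  have h2 : ((∑ i, b.repr ⟨m, hm⟩ i • b i : M) : G → Qb)
      = ∑ i, b.repr ⟨m, hm⟩ i • ((b i : M) : G → Qb) :=
    (map_sum M.val _ _).trans (Finset.sum_congr rfl fun i _ => rfl)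
  have h3 : m = ∑ i, b.repr ⟨m, hm⟩ i • ((b i : M) : G → Qb) := h1.symm.trans h2
  conv_lhs => rw [h3]
  rw [Finset.sum_apply]
  exact Finset.sum_congr rfl fun i _ => by rw [Pi.smul_apply, Algebra.smul_def]

/-- an `ℤ_(p)`-combination of elements of a subalgebra, pointwise. -/
theorem sum_mem {G : Type} (M : Subalgebra (Rl p) (G → Qb)) {ι : Type} (s : Finset ι)
    (c : ι → Rl p) (u : ι → G → Qb) (hu : ∀ i ∈ s, u i ∈ M) :
    (fun y => ∑ i ∈ s, algebraMap (Rl p) Qb (c i) * u i y) ∈ M := by
  have h : (fun y => ∑ i ∈ s, algebraMap (Rl p) Qb (c i) * u i y) = ∑ i ∈ s, c i • u i := by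
    funext y
    rw [Finset.sum_apply]
    exact Finset.sum_congr rfl fun i _ => by rw [Pi.smul_apply, Algebra.smul_def]
  rw [h]
  exact M.sum_mem fun i hi => M.smul_mem (hu i hi) _

/-- invariant functions descend. -/
theorem exists_descend {X X'' : Type} [AddCommGroup X] [AddCommGroup X''] (φ : X →+ X'')
    (hφ : Function.Surjective φ) (f : X → Qb) (hf : ∀ x κ, φ κ = 0 → f (x + κ) = f x) :
    ∃ f'' : X'' → Qb, ∀ x, f'' (φ x) = f x := by
  refine ⟨fun y => f (Function.surjInv hφ y), fun x => ?_⟩
  have h1 : φ (Function.surjInv hφ (φ x)) = φ x := Function.surjInv_eq hφ (φ x)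
  have h2 := hf x (Function.surjInv hφ (φ x) - x) (by rw [map_sub, h1, sub_self])
  rw [add_sub_cancel] at h2
  exact h2

/-- common denominators. -/
theorem exists_common_den {ι : Type} (s : Finset ι) (r : ι → ℚ) :
    ∃ d : Rl p, d ≠ 0 ∧ ∀ i ∈ s, ∃ t : Rl p, (d : ℚ) * r i = t := by
  classical
  induction s using Finset.induction_on with
  | empty => exact ⟨1, one_ne_zero, fun i hi => absurd hi (Finset.notMem_empty i)⟩
  | insert a s ha ih =>
    obtain ⟨d, hd, hdr⟩ := ih
    obtain ⟨e, he, t, ht⟩ := Fermat.Agent.S19.exists_Rl_mul_eq p (r a)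
    refine ⟨e * d, mul_ne_zero he hd, fun i hi => ?_⟩
    rcases Finset.mem_insert.1 hi with rfl | hi
    · refine ⟨t * d, ?_⟩
      push_cast
      rw [← ht]; ring
    · obtain ⟨t', ht'⟩ := hdr i hi
      refine ⟨e * t', ?_⟩
      push_cast
      rw [← ht']; ring

open Classical in
/-- summation along the fibres. -/
noncomputable def push {X X'' : Type} [Fintype X] (φ : X → X'') : (X → Qb) →ₗ[Qb] (X'' → Qb) where
  toFun a := fun y => ∑ x ∈ Finset.univ.filter (fun x => φ x = y), a x
  map_add' a b := by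
    funext y
    simp only [Pi.add_apply, Finset.sum_add_distrib]
  map_smul' c a := by
    funext y
    simp only [Pi.smul_apply, smul_eq_mul, RingHom.id_apply, Finset.mul_sum]

open Classical in
theorem push_apply {X X'' : Type} [Fintype X] (φ : X → X'') (a : X → Qb) (y : X'') :
    push φ a y = ∑ x ∈ Finset.univ.filter (fun x => φ x = y), a x := rfl

theorem push_surjective {X X'' : Type} [Fintype X] {φ : X → X''} (hφ : Function.Surjective φ) :
    Function.Surjective (push φ) := by
  classical
  intro b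
  refine ⟨fun x => b (φ x) / ((Finset.univ.filter (fun x' => φ x' = φ x)).card : Qb), ?_⟩
  funext y
  obtain ⟨x₀, rfl⟩ := hφ y
  rw [push_apply]
  have h1 : ∀ x ∈ Finset.univ.filter (fun x => φ x = φ x₀),
      b (φ x) / ((Finset.univ.filter (fun x' => φ x' = φ x)).card : Qb) =
        b (φ x₀) / ((Finset.univ.filter (fun x' => φ x' = φ x₀)).card : Qb) := by
    intro x hx
    rw [(Finset.mem_filter.1 hx).2]
  rw [Finset.sum_congr rfl h1, Finset.sum_const, nsmul_eq_mul]
  have h2 : ((Finset.univ.filter (fun x' => φ x' = φ x₀)).card : Qb) ≠ 0 := by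
    rw [Nat.cast_ne_zero]
    exact Finset.card_ne_zero.2 ⟨x₀, Finset.mem_filter.2 ⟨Finset.mem_univ _, rfl⟩⟩
  field_simp

open Classical in
theorem push_apply_map {X X'' : Type} [Fintype X] [AddCommGroup X] [AddCommGroup X'']
    (φ : X →+ X'') (a : X → Qb) (x₀ : X) :
    push φ a (φ x₀) = ∑ κ ∈ Finset.univ.filter (fun κ => φ κ = 0), a (x₀ + κ) := by
  rw [push_apply]
  symm
  refine Finset.sum_equiv (Equiv.addLeft x₀) ?_ ?_
  · intro κ
    simp only [Finset.mem_filter, Finset.mem_univ, true_and, Equiv.coe_addLeft, map_add,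
      add_eq_left]
  · intro κ _
    rfl

end QuotAux

open QuotAux

variable {p : ℕ} [Fact p.Prime] {X X'' : Type} [AddCommGroup X] [Finite X] [DistribMulAction Gam X]
  [AddCommGroup X''] [DistribMulAction Gam X'']

theorem HasOrder.of_surjective (φ : X →+ X'') (hφ : Function.Surjective φ)
    (hσ : ∀ (σ : Gam) (x : X), φ (σ • x) = σ • φ x) (h : HasOrder p X) : HasOrder p X'' := by
  classical
  obtain ⟨H, h⟩ := h
  have := Fintype.ofFinite X
  set H'' : Subalgebra (Rl p) (X'' → Qb) := H.comap (pull p φ) with hH''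
  have hmem : ∀ a'' : X'' → Qb, a'' ∈ H'' ↔ (fun x => a'' (φ x)) ∈ H := fun a'' => Iff.rfl
  have heqv : ∀ a ∈ H'', IsEqv a := by
    intro a ha σ y
    obtain ⟨x, rfl⟩ := hφ y
    rw [← hσ]
    exact h.eqv _ ((hmem a).1 ha) σ x
  have hfg : (Subalgebra.toSubmodule H'').FG := by
    have : IsPrincipalIdealRing (Rl p) := Fermat.Agent.S19.isPrincipalIdealRing_Rl p
    have hN : IsNoetherian (Rl p) (Subalgebra.toSubmodule H) :=
      isNoetherian_of_fg_of_noetherian _ h.fg
    refine Submodule.fg_of_fg_map_injective (pull p φ).toLinearMap (pull_injective p hφ) ?_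
    refine isNoetherian_submodule.1 hN _ ?_
    rintro _ ⟨a, ha, rfl⟩
    exact ha
  refine ⟨H'', heqv, hfg, ?_, ?_, ?_⟩
  · -- span
    have h1 : Submodule.span Qb (push φ '' (H : Set (X → Qb))) = ⊤ := by
      rw [← Submodule.map_span, h.span, Submodule.map_top, LinearMap.range_eq_top]
      exact push_surjective hφ
    rw [eq_top_iff, ← h1, Submodule.span_le]
    rintro _ ⟨a, ha, rfl⟩
    obtain ⟨n, u, v, hu, hv, huv⟩ := h.comul a ha
    -- the constants
    let s : Fin n → Qb := fun i => ∑ κ ∈ Finset.univ.filter (fun κ => φ κ = 0), v i κ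
    have hs : ∀ i, ∃ r : ℚ, algebraMap ℚ Qb r = s i := by
      intro i
      apply Fermat.Agent.S19.exists_rat_of_fixed_artin
      intro σ
      show σ (∑ κ ∈ Finset.univ.filter (fun κ => φ κ = 0), v i κ) = _
      rw [map_sum]
      refine Finset.sum_equiv (MulAction.toPerm σ) ?_ ?_
      · intro κ
        simp only [Finset.mem_filter, Finset.mem_univ, true_and, MulAction.toPerm_apply, hσ,
          smul_eq_zero_iff_eq]
      · intro κ _
        exact (h.eqv _ (hv i) σ κ).symm
    choose r hr using hs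
    obtain ⟨d, hd, hdr⟩ := exists_common_den (p := p) Finset.univ r
    choose t ht using fun i => hdr i (Finset.mem_univ i)
    have hd' : algebraMap (Rl p) Qb d ≠ 0 := by
      intro h0
      have h4 : algebraMap ℚ Qb (d : ℚ) = 0 := h0
      exact hd (Subtype.ext ((map_eq_zero _).mp h4))
    have hin : algebraMap (Rl p) Qb d • push φ a ∈ H'' := by
      rw [hmem]
      have e : (fun x => (algebraMap (Rl p) Qb d • push φ a) (φ x)) =
          fun x => ∑ i ∈ Finset.univ, algebraMap (Rl p) Qb (t i) * u i x := by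
        funext x
        rw [Pi.smul_apply, push_apply_map, smul_eq_mul]
        simp_rw [huv]
        rw [Finset.sum_comm, Finset.mul_sum]
        refine Finset.sum_congr rfl fun i _ => ?_
        rw [← Finset.mul_sum]
        have e1 : algebraMap (Rl p) Qb (t i) = algebraMap (Rl p) Qb d * s i := by
          rw [← hr i]
          show algebraMap ℚ Qb (t i : ℚ) = algebraMap ℚ Qb (d : ℚ) * _
          rw [← ht i, map_mul]
        rw [e1]
        ring
      rw [e]
      exact sum_mem H _ _ _ fun i _ => hu i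
    have e2 : push φ a = (algebraMap (Rl p) Qb d)⁻¹ • (algebraMap (Rl p) Qb d • push φ a) := by
      rw [smul_smul, inv_mul_cancel₀ hd', one_smul]
    rw [e2]
    exact Submodule.smul_mem _ _ (Submodule.subset_span hin)
  · -- comul
    intro a'' ha''
    have ha : (fun x => a'' (φ x)) ∈ H := (hmem a'').1 ha''
    obtain ⟨n, u, v, hu, hv, huv⟩ := h.comul _ ha
    obtain ⟨m, b, hb, -⟩ := h.exists_basis
    obtain ⟨m'', b'', hb''⟩ := exists_basis_of_fg H'' hfg heqv
    -- step 1
    let A : Fin m → X → Qb := fun j x => ∑ i, algebraMap (Rl p) Qb (b.repr ⟨v i, hv i⟩ j) * u i x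
    have hA : ∀ j, A j ∈ H := fun j => sum_mem H _ _ _ fun i _ => hu i
    have h1 : ∀ x y, a'' (φ x + φ y) = ∑ j, A j x * ((b j : H) : X → Qb) y := by
      intro x y
      rw [← map_add, huv]
      simp_rw [A, Finset.sum_mul]
      rw [Finset.sum_comm]
      refine Finset.sum_congr rfl fun i _ => ?_
      rw [eq_sum_repr H b (hv i) y, Finset.mul_sum]
      exact Finset.sum_congr rfl fun j _ => by ring
    -- step 2
    have hAinv : ∀ j x κ, φ κ = 0 → A j (x + κ) = A j x := by
      intro j x κ hκ
      have h2 : ∑ j, (A j (x + κ) - A j x) • ((b j : H) : X → Qb) = 0 := by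
        funext y
        rw [Finset.sum_apply, Pi.zero_apply]
        simp_rw [Pi.smul_apply, smul_eq_mul, sub_mul]
        rw [Finset.sum_sub_distrib, ← h1, ← h1, map_add, hκ, add_zero, sub_self]
      exact sub_eq_zero.1 (Fintype.linearIndependent_iff.1 hb _ h2 j)
    have hA'' : ∀ j, ∃ f'' : X'' → Qb, ∀ x, f'' (φ x) = A j x := fun j =>
      exists_descend φ hφ (A j) (hAinv j)
    choose A'' hA''φ using hA''
    have hA''mem : ∀ j, A'' j ∈ H'' := by
      intro j
      rw [hmem]
      have : (fun x => A'' j (φ x)) = A j := funext (hA''φ j)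
      rw [this]
      exact hA j
    -- step 3
    let B : Fin m'' → X → Qb := fun l y =>
      ∑ j, algebraMap (Rl p) Qb (b''.repr ⟨A'' j, hA''mem j⟩ l) * ((b j : H) : X → Qb) y
    have hB : ∀ l, B l ∈ H := fun l => sum_mem H _ _ _ fun j _ => (b j).2
    have h3 : ∀ x y, a'' (φ x + φ y) = ∑ l, ((b'' l : H'') : X'' → Qb) (φ x) * B l y := by
      intro x y
      rw [h1]
      simp_rw [B, Finset.mul_sum]
      rw [Finset.sum_comm]
      refine Finset.sum_congr rfl fun j _ => ?_
      rw [← hA''φ j x, eq_sum_repr H'' b'' (hA''mem j) (φ x), Finset.sum_mul]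
      exact Finset.sum_congr rfl fun l _ => by ring
    -- step 4
    have hBinv : ∀ l y κ, φ κ = 0 → B l (y + κ) = B l y := by
      intro l y κ hκ
      have h4 : ∑ l, (B l (y + κ) - B l y) • ((b'' l : H'') : X'' → Qb) = 0 := by
        funext x''
        obtain ⟨x, rfl⟩ := hφ x''
        rw [Finset.sum_apply, Pi.zero_apply]
        simp_rw [Pi.smul_apply, smul_eq_mul, sub_mul, mul_comm (B _ _)]
        rw [Finset.sum_sub_distrib, ← h3, ← h3, map_add, hκ, add_zero, sub_self]
      exact sub_eq_zero.1 (Fintype.linearIndependent_iff.1 hb'' _ h4 l)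
    have hB'' : ∀ l, ∃ f'' : X'' → Qb, ∀ x, f'' (φ x) = B l x := fun l =>
      exists_descend φ hφ (B l) (hBinv l)
    choose B'' hB''φ using hB''
    have hB''mem : ∀ l, B'' l ∈ H'' := by
      intro l
      rw [hmem]
      have : (fun x => B'' l (φ x)) = B l := funext (hB''φ l)
      rw [this]
      exact hB l
    refine ⟨m'', fun l => ((b'' l : H'') : X'' → Qb), B'', fun l => (b'' l).2, hB''mem, ?_⟩
    intro x'' y''
    obtain ⟨x, rfl⟩ := hφ x''
    obtain ⟨y, rfl⟩ := hφ y''
    rw [h3]
    exact Finset.sum_congr rfl fun l _ => by rw [hB''φ]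
  · -- counit
    intro a'' ha''
    have := h.counit _ ((hmem a'').1 ha'')
    rwa [map_zero] at this

end Fermat.Agent.S32
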