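import Fermat.Agent.S32.Defs
import Fermat.Agent.S19.A.Criterion

/-!
# S32 / F2 : a model gives a Hopf order

Let `(H, e)` be a model of `X`.  `j : H →ₐ[ℤ_(p)] (X → ℚ̄)`, `j h x = (e.symm x) h`, `H' := j.range`.

* `eqv` : for `f = e.symm x` let `g := σ ∘ f` (`σ` restricted to a `ℤ_(p)`-algebra map); the last
  clause of `HasModel` gives `e g = σ • x`, i.e. `j h (σ • x) = σ (j h x)`.
* `fg` : image of a finite module.
* `span` : the points `e.symm x` are pairwise distinct monoid homs `H → ℚ̄`, so they are linearly
  independent over `ℚ̄` (`linearIndependent_monoidHom`).  If the span of the `j h` were a proper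
  subspace of `X → ℚ̄`, a non zero linear form `∑ λ x • ev x` would vanish on it:
  `∑ λ x • (e.symm x) h = 0` for all `h`.
* `comul` : `j h (x + y) = (e.symm x * e.symm y) h = ∑ (e.symm x) h₁ * (e.symm y) h₂` where
  `comul h = ∑ h₁ ⊗ h₂` (see how `S19/A/Hopf.lean : evalAt_add, lift_evalAt` unfold the convolution
  product of `WithConv`).
* `counit` : `e 1 = 0` (from `e (1 * 1) = e 1 + e 1`), and `(1 : WithConv _) h = algebraMap (counit h)`.
-/

set_option autoImplicit false

namespace Fermat.Agent.S32

open Fermat.Agent.S19 (Qb Gam Rl IsEqv)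

variable {p : ℕ} [Fact p.Prime] {X : Type} [AddCommGroup X] [Finite X] [DistribMulAction Gam X]

theorem HasModel.hasOrder (h : HasModel p X) : HasOrder p X := by
  classical
  obtain ⟨H, i1, i2, hfin, hflat, hcoc, e, hadd, hgal⟩ := h
  have : Fintype X := Fintype.ofFinite X
  let j : H →ₐ[Rl p] (X → Qb) := AlgHom.pi (fun x => (e.symm x).ofConv)
  have hj : ∀ h x, j h x = (e.symm x) h := fun _ _ => rfl
  refine ⟨j.range, ?_, ?_, ?_, ?_, ?_⟩
  · -- equivariance
    rintro _ ⟨h, rfl⟩ σ y
    let g : WithConv (H →ₐ[Rl p] Qb) :=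
      WithConv.toConv (((σ : Qb →ₐ[ℚ] Qb).restrictScalars (Rl p)).comp (e.symm y).ofConv)
    have h1 : e g = σ • e (e.symm y) := hgal σ (e.symm y) g (fun _ => rfl)
    rw [Equiv.apply_symm_apply] at h1
    have h2 : e.symm (σ • y) = g := by rw [← h1, Equiv.symm_apply_apply]
    change j h (σ • y) = σ (j h y)
    rw [hj, h2]
    rfl
  · -- finite generation
    have h1 : Subalgebra.toSubmodule j.range = Submodule.map j.toLinearMap ⊤ := by
      ext a
      simp
    rw [h1]
    exact Submodule.FG.map _ hfin.fg_top
  · -- span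
    by_contra hne
    obtain ⟨φ, hφ0, hφ⟩ := Submodule.exists_le_ker_of_lt_top _ (lt_top_iff_ne_top.mpr hne)
    have hform : ∀ u : X → Qb, φ u = ∑ x, u x * φ (Pi.single x 1) := by
      intro u
      have hu : u = ∑ x, u x • (Pi.single x 1 : X → Qb) := by
        funext y
        simp [Finset.sum_apply, Pi.single_apply]
      conv_lhs => rw [hu]
      simp [map_sum]
    have hli : LinearIndependent Qb
        (fun x : X => (((e.symm x).ofConv : H →* Qb) : H → Qb)) := by
      have h1 := linearIndependent_monoidHom H Qb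
      refine h1.comp (fun x : X => ((e.symm x).ofConv : H →* Qb)) ?_
      intro x y hxy
      apply e.symm.injective
      apply WithConv.ext
      apply AlgHom.ext
      intro h
      exact DFunLike.congr_fun hxy h
    have hzero := Fintype.linearIndependent_iff.mp hli (fun x => φ (Pi.single x 1)) (by
      funext h
      have h1 : φ (j h) = 0 := hφ (Submodule.subset_span ⟨h, rfl⟩)
      rw [hform] at h1
      simp only [Finset.sum_apply, Pi.smul_apply, smul_eq_mul, Pi.zero_apply]
      rw [← h1]
      refine Finset.sum_congr rfl fun x _ => ?_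
      rw [mul_comm]
      rfl)
    apply hφ0
    apply LinearMap.ext
    intro u
    rw [hform, LinearMap.zero_apply]
    exact Finset.sum_eq_zero fun x _ => by rw [hzero x, mul_zero]
  · -- comultiplication
    rintro _ ⟨h, rfl⟩
    obtain ⟨s, hs⟩ := TensorProduct.exists_finset (R := Rl p) (Coalgebra.comul (R := Rl p) h)
    have key : ∀ x y, j h (x + y) = ∑ i ∈ s, j i.1 x * j i.2 y := by
      intro x y
      have h1 : e.symm (x + y) = e.symm x * e.symm y := by
        apply e.injective
        rw [hadd, Equiv.apply_symm_apply, Equiv.apply_symm_apply, Equiv.apply_symm_apply]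
      rw [hj, h1, AlgHom.convMul_apply, hs, map_sum]
      refine Finset.sum_congr rfl fun i _ => ?_
      rw [Algebra.TensorProduct.lift_tmul]
      rfl
    refine ⟨s.card, fun i => j (s.equivFin.symm i).1.1, fun i => j (s.equivFin.symm i).1.2,
      fun i => ⟨_, rfl⟩, fun i => ⟨_, rfl⟩, fun x y => ?_⟩
    change j h (x + y) = _
    rw [key, ← Finset.sum_coe_sort]
    exact (s.equivFin.symm.sum_comp (fun i : s => j i.1.1 x * j i.1.2 y)).symm
  · -- counit
    rintro _ ⟨h, rfl⟩
    have h1 : e 1 = 0 := by
      have := hadd 1 1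
      rw [one_mul] at this
      exact left_eq_add.mp this
    have h2 : e.symm 0 = 1 := by rw [← h1, Equiv.symm_apply_apply]
    refine ⟨Coalgebra.counit h, ?_⟩
    change _ = j h 0
    rw [hj, h2, AlgHom.convOne_apply]

end Fermat.Agent.S32
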