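import Fermat.Agent.S32.Defs
import Fermat.Agent.S19.A.Criterion

/-!
# S32 / F3c : Hopf orders pass to finite powers

`H_Π := Algebra.adjoin ℤ_(p) {a ∘ (· i) | i : ι, a ∈ H}` inside `(ι → X) → ℚ̄`.

* `eqv`, `counit`, `comul` : the functions with the property form a subalgebra
  (for `comul` see `S19.HopfOrder.HasComul.{add, mul, of_algebraMap}`), use `Algebra.adjoin_induction`.
* `fg` : `H` is generated as a module by a finite set `s` of elements integral over `ℤ_(p)`;
  `H_Π = adjoin {a ∘ (· i) | i, a ∈ s}`, a finite set of integral elements: `fg_adjoin_of_finite`.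
* `span` : the `ℚ̄`-span of a subalgebra is stable under products; it contains `δ_x ∘ (· i)` for all
  `i`, `x` (because `H` spans `X → ℚ̄`), hence `δ_y = ∏ i, δ_(y i) ∘ (· i)` for all `y : ι → X`.

(Alternative: binary products + the trivial group + induction on `Fin n` + `HasOrder.of_injective`
for the transport along `ι ≃ Fin n`.)
-/

set_option autoImplicit false

namespace Fermat.Agent.S32

open Fermat.Agent.S19 (Qb Gam Rl IsEqv)

variable {p : ℕ} [Fact p.Prime] {X : Type} [AddCommGroup X] [Finite X] [DistribMulAction Gam X]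

theorem HasOrder.pi (ι : Type) [Finite ι] (h : HasOrder p X) : HasOrder p (ι → X) := by
  classical
  have : Fintype ι := Fintype.ofFinite ι
  have : Fintype X := Fintype.ofFinite X
  obtain ⟨H, hH⟩ := h
  let pull : ι → (X → Qb) →ₐ[Rl p] ((ι → X) → Qb) := fun i =>
    AlgHom.pi (fun y => Pi.evalAlgHom (Rl p) _ (y i))
  have hpull : ∀ i a y, pull i a y = a (y i) := fun _ _ _ => rfl
  let S : Set ((ι → X) → Qb) := {f | ∃ i, ∃ a ∈ H, f = pull i a}
  let HP : Subalgebra (Rl p) ((ι → X) → Qb) := Algebra.adjoin (Rl p) S
  have hmem : ∀ i, ∀ a ∈ H, pull i a ∈ HP := fun i a ha =>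
    Algebra.subset_adjoin ⟨i, a, ha, rfl⟩
  refine ⟨HP, ?_, ?_, ?_, ?_, ?_⟩
  · -- equivariance
    intro a ha
    induction ha using Algebra.adjoin_induction with
    | mem x hx =>
      obtain ⟨i, a, ha, rfl⟩ := hx
      intro σ y
      rw [hpull, hpull, Pi.smul_apply, hH.eqv a ha]
    | algebraMap r =>
      intro σ y
      change algebraMap (Rl p) Qb r = σ (algebraMap (Rl p) Qb r)
      have : algebraMap (Rl p) Qb r = algebraMap ℚ Qb (r : ℚ) := rfl
      rw [this, AlgEquiv.commutes]
    | add x y _ _ hx hy =>
      intro σ z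
      rw [Pi.add_apply, Pi.add_apply, hx, hy, map_add]
    | mul x y _ _ hx hy =>
      intro σ z
      rw [Pi.mul_apply, Pi.mul_apply, hx, hy, map_mul]
  · -- finite generation
    obtain ⟨s, hs⟩ := hH.fg
    let S' : Set ((ι → X) → Qb) := ⋃ i, pull i '' (s : Set (X → Qb))
    have hsH : ∀ a ∈ s, a ∈ H := by
      intro a ha
      have : a ∈ Subalgebra.toSubmodule H := by rw [← hs]; exact Submodule.subset_span ha
      exact this
    have hHP : HP = Algebra.adjoin (Rl p) S' := by
      apply le_antisymm
      · apply Algebra.adjoin_le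
        rintro _ ⟨i, a, ha, rfl⟩
        have ha' : a ∈ Submodule.span (Rl p) (s : Set (X → Qb)) := by rw [hs]; exact ha
        have h1 : pull i a ∈ Submodule.map (pull i).toLinearMap
            (Submodule.span (Rl p) (s : Set (X → Qb))) := ⟨a, ha', rfl⟩
        rw [Submodule.map_span] at h1
        have h2 : Submodule.span (Rl p) ((pull i).toLinearMap '' (s : Set (X → Qb))) ≤
            Subalgebra.toSubmodule (Algebra.adjoin (Rl p) S') := by
          apply Submodule.span_le.mpr
          rintro _ ⟨b, hb, rfl⟩
          exact Algebra.subset_adjoin (Set.mem_iUnion.mpr ⟨i, b, hb, rfl⟩)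
        exact h2 h1
      · apply Algebra.adjoin_mono
        intro f hf
        obtain ⟨i, b, hb, rfl⟩ := Set.mem_iUnion.mp hf
        exact ⟨i, b, hsH b hb, rfl⟩
    rw [hHP]
    apply fg_adjoin_of_finite
    · exact Set.finite_iUnion (fun i => (s.finite_toSet).image _)
    · intro f hf
      obtain ⟨i, b, hb, rfl⟩ := Set.mem_iUnion.mp hf
      exact (IsIntegral.of_mem_of_fg H hH.fg b (hsH b hb)).map (pull i)
  · -- span
    let W : Subalgebra Qb ((ι → X) → Qb) := Algebra.adjoin Qb (HP : Set ((ι → X) → Qb))
    have hW : Subalgebra.toSubmodule W = Submodule.span Qb (HP : Set ((ι → X) → Qb)) := by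
      rw [Algebra.adjoin_eq_span]
      congr 1
      exact congrArg (fun M : Submonoid ((ι → X) → Qb) => (M : Set ((ι → X) → Qb)))
        (Submonoid.closure_eq HP.toSubmonoid)
    rw [← hW]
    rw [eq_top_iff]
    intro F _
    change F ∈ W
    let pullL : ι → (X → Qb) →ₗ[Qb] ((ι → X) → Qb) := fun i =>
      LinearMap.funLeft Qb Qb (fun y : ι → X => y i)
    have hδ : ∀ i (g : X → Qb), pullL i g ∈ W := by
      intro i g
      have hg : g ∈ Submodule.span Qb (H : Set (X → Qb)) := by rw [hH.span]; exact Submodule.mem_top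
      have h1 : pullL i g ∈ Submodule.map (pullL i) (Submodule.span Qb (H : Set (X → Qb))) :=
        ⟨g, hg, rfl⟩
      rw [Submodule.map_span] at h1
      have h2 : Submodule.span Qb ((pullL i) '' (H : Set (X → Qb))) ≤ Subalgebra.toSubmodule W := by
        apply Submodule.span_le.mpr
        rintro _ ⟨b, hb, rfl⟩
        exact Algebra.subset_adjoin (hmem i b hb)
      exact h2 h1
    have hsingle : ∀ y : ι → X, (Pi.single y (1 : Qb) : (ι → X) → Qb) ∈ W := by
      intro y
      have : (Pi.single y (1 : Qb) : (ι → X) → Qb) =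
          ∏ i, pullL i (Pi.single (y i) (1 : Qb)) := by
        funext z
        rw [Finset.prod_apply]
        by_cases hzy : z = y
        · subst hzy
          rw [Pi.single_eq_same]
          symm
          apply Finset.prod_eq_one
          intro i _
          change (Pi.single (z i) (1 : Qb) : X → Qb) (z i) = 1
          rw [Pi.single_eq_same]
        · rw [Pi.single_eq_of_ne hzy]
          obtain ⟨i, hi⟩ := Function.ne_iff.mp hzy
          symm
          apply Finset.prod_eq_zero (Finset.mem_univ i)
          change (Pi.single (y i) (1 : Qb) : X → Qb) (z i) = 0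
          rw [Pi.single_eq_of_ne hi]
      rw [this]
      exact W.prod_mem (fun i _ => hδ i _)
    have hF : F = ∑ y, F y • (Pi.single y (1 : Qb) : (ι → X) → Qb) := by
      funext z
      rw [Finset.sum_apply]
      rw [Finset.sum_eq_single z]
      · simp
      · intro b _ hb
        simp [Pi.single_eq_of_ne (Ne.symm hb)]
      · intro h; exact absurd (Finset.mem_univ z) h
    rw [hF]
    exact W.sum_mem (fun y _ => W.smul_mem (hsingle y) _)
  · -- comultiplication
    intro a ha
    have key : Fermat.Agent.S19.HopfOrder.HasComul HP a := by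
      induction ha using Algebra.adjoin_induction with
      | mem x hx =>
        obtain ⟨i, a, ha, rfl⟩ := hx
        obtain ⟨n, u, v, hu, hv, huv⟩ := hH.comul a ha
        refine ⟨Fin n, inferInstance, fun k => ⟨pull i (u k), hmem i _ (hu k)⟩,
          fun k => ⟨pull i (v k), hmem i _ (hv k)⟩, fun x y => ?_⟩
        rw [hpull, Pi.add_apply, huv]
        rfl
      | algebraMap r => exact Fermat.Agent.S19.HopfOrder.HasComul.of_algebraMap HP r
      | add x y _ _ hx hy => exact hx.add hy
      | mul x y _ _ hx hy => exact hx.mul hy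
    obtain ⟨n, u, v, huv⟩ := key.fin
    exact ⟨n, fun i => (u i : (ι → X) → Qb), fun i => (v i : (ι → X) → Qb), fun i => (u i).2,
      fun i => (v i).2, huv⟩
  · -- counit
    intro a ha
    change a 0 ∈ ((algebraMap (Rl p) Qb).range : Set Qb)
    induction ha using Algebra.adjoin_induction with
    | mem x hx =>
      obtain ⟨i, a, ha, rfl⟩ := hx
      exact hH.counit a ha
    | algebraMap r => exact ⟨r, rfl⟩
    | add x y _ _ hx hy => exact (algebraMap (Rl p) Qb).range.add_mem hx hy
    | mul x y _ _ hx hy => exact (algebraMap (Rl p) Qb).range.mul_mem hx hy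

end Fermat.Agent.S32
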