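import Fermat.Agent.S32.Sub
import Fermat.Agent.S32.Quot
import Fermat.Agent.S32.Pi

/-!
# S32 / F4 : the annihilator criterion

If every element of `ℤ[Gam]` which kills `X` kills `Z`, then `Z` is an equivariant quotient of an
equivariant subgroup of a finite power of `X`, so a Hopf order on `X` gives one on `Z`.

Proof.  `W := (Z × X) → X` (`HasOrder.pi`).  Let `Γ ≤ W × Z` be the set of all pairs
`(fun (z, y) => (x z) • y , ∑ z, (x z) • z)`, `x : Z → (Gam →₀ ℤ)`, where
`ξ • y := ξ.sum fun σ a => a • σ • y`.  It is a `Gam`-stable subgroup (replace `x z` by its left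
translate `Finsupp.mapDomain (σ * ·)`); make it a `DistribMulAction` with `stableAction`.
The first projection `Γ → W` is injective (if `x z` kills `X` for all `z` then it kills `Z`), the
second projection `Γ → Z` is surjective (`x := Pi.single z₀ (Finsupp.single 1 1)`).
Apply `HasOrder.of_injective` and `HasOrder.of_surjective` (`Γ` is finite).
-/

set_option autoImplicit false

namespace Fermat.Agent.S32

open Fermat.Agent.S19 (Qb Gam Rl IsEqv)

/-- the action on a stable subgroup. -/
@[reducible] def stableAction {G W : Type*} [Monoid G] [AddCommGroup W] [DistribMulAction G W]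
    (Γ : AddSubgroup W) (h : ∀ (σ : G), ∀ w ∈ Γ, σ • w ∈ Γ) : DistribMulAction G Γ where
  smul σ w := ⟨σ • w.1, h σ w.1 w.2⟩
  one_smul w := Subtype.ext (one_smul G w.1)
  mul_smul σ τ w := Subtype.ext (mul_smul σ τ w.1)
  smul_zero σ := Subtype.ext (smul_zero σ)
  smul_add σ w w' := Subtype.ext (smul_add σ w.1 w'.1)

namespace SubQAux

variable {G Y : Type*} [Monoid G] [AddCommGroup Y] [DistribMulAction G Y]

/-- the action of the group ring element `ξ` on `y`, as an additive map in `ξ`. -/
noncomputable def actHom (y : Y) : (G →₀ ℤ) →+ Y :=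
  Finsupp.liftAddHom (fun σ => zmultiplesHom Y (σ • y))

theorem actHom_apply (y : Y) (ξ : G →₀ ℤ) : actHom y ξ = ξ.sum fun σ a => a • σ • y := by
  rw [actHom, Finsupp.liftAddHom_apply]
  rfl

theorem actHom_single (y : Y) (σ : G) (a : ℤ) : actHom y (Finsupp.single σ a) = a • σ • y := by
  simp [actHom]

theorem smul_actHom (σ : G) (y : Y) (ξ : G →₀ ℤ) :
    σ • actHom y ξ = actHom y (Finsupp.mapDomain (σ * ·) ξ) := by
  induction ξ using Finsupp.induction_linear with
  | zero => simp
  | add f g hf hg => rw [map_add, smul_add, hf, hg, Finsupp.mapDomain_add, map_add]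
  | single τ a =>
    rw [Finsupp.mapDomain_single, actHom_single, actHom_single, mul_smul]
    exact (DistribSMul.toAddMonoidHom Y σ).map_zsmul _ _

end SubQAux

open SubQAux

variable {p : ℕ} [Fact p.Prime] {X Z : Type} [AddCommGroup X] [Finite X] [DistribMulAction Gam X]
  [AddCommGroup Z] [Finite Z] [DistribMulAction Gam Z]

theorem HasOrder.of_annihilator (hX : HasOrder p X)
    (h : ∀ x : Gam →₀ ℤ, (∀ y : X, (x.sum fun σ a => a • σ • y) = 0) →
      ∀ z : Z, (x.sum fun σ a => a • σ • z) = 0) : HasOrder p Z := by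
  classical
  have : Fintype Z := Fintype.ofFinite Z
  have hW : HasOrder p ((Z × X) → X) := HasOrder.pi (Z × X) hX
  -- the parametrisation
  let Φ : (Z → (Gam →₀ ℤ)) →+ ((Z × X) → X) × Z :=
    AddMonoidHom.mk' (fun x => (fun i => actHom i.2 (x i.1), ∑ z, actHom z (x z))) (by
      intro x x'
      refine Prod.ext ?_ ?_
      · funext i; simp
      · simp [Finset.sum_add_distrib])
  have hΦ : ∀ x, Φ x = (fun i => actHom i.2 (x i.1), ∑ z, actHom z (x z)) := fun _ => rfl
  let Γ : AddSubgroup (((Z × X) → X) × Z) := Φ.range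
  have hstab : ∀ (σ : Gam), ∀ w ∈ Γ, σ • w ∈ Γ := by
    rintro σ _ ⟨x, rfl⟩
    refine ⟨fun z => Finsupp.mapDomain (σ * ·) (x z), ?_⟩
    rw [hΦ, hΦ]
    refine Prod.ext ?_ ?_
    · funext i
      exact (smul_actHom σ i.2 (x i.1)).symm
    · show ∑ z, actHom z (Finsupp.mapDomain (σ * ·) (x z)) = σ • ∑ z, actHom z (x z)
      rw [Finset.smul_sum]
      exact Finset.sum_congr rfl fun z _ => (smul_actHom σ z (x z)).symm
  let _ : DistribMulAction Gam Γ := stableAction Γ hstab
  let pr₁ : Γ →+ ((Z × X) → X) := (AddMonoidHom.fst _ _).comp Γ.subtype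
  let pr₂ : Γ →+ Z := (AddMonoidHom.snd _ _).comp Γ.subtype
  have hinj : Function.Injective pr₁ := by
    rw [injective_iff_map_eq_zero]
    rintro ⟨_, x, rfl⟩ hx
    have hx' : (fun i : Z × X => actHom i.2 (x i.1)) = 0 := hx
    have h1 : ∀ z z' : Z, actHom z' (x z) = 0 := by
      intro z z'
      rw [actHom_apply]
      refine h (x z) (fun y => ?_) z'
      rw [← actHom_apply]
      exact congrFun hx' (z, y)
    refine Subtype.ext ?_
    show Φ x = 0
    rw [hΦ, hx']
    refine Prod.ext rfl ?_
    exact Finset.sum_eq_zero fun z _ => h1 z z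
  have hsurj : Function.Surjective pr₂ := by
    intro z₀
    refine ⟨⟨Φ (Pi.single z₀ (Finsupp.single 1 1)), ⟨_, rfl⟩⟩, ?_⟩
    show ∑ z, actHom z ((Pi.single z₀ (Finsupp.single 1 1) : Z → (Gam →₀ ℤ)) z) = z₀
    rw [Finset.sum_eq_single z₀]
    · rw [Pi.single_eq_same, actHom_single, one_smul, one_smul]
    · intro z _ hz
      rw [Pi.single_eq_of_ne hz, map_zero]
    · intro hz; exact absurd (Finset.mem_univ _) hz
  have hΓ : HasOrder p Γ := HasOrder.of_injective pr₁ hinj (fun _ _ => rfl) hW
  exact HasOrder.of_surjective pr₂ hsurj (fun _ _ => rfl) hΓ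

end Fermat.Agent.S32
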