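import Fermat.Agent.S32.Abs
import Fermat.Agent.S32.SubQ
import Fermat.Agent.S32.OfModel
import Fermat.Agent.GAL.PC.Glue
import Fermat.Agent.GAL.PC.Wire
import Fermat.Prelude.Def_ModularCurve_ArithmeticGalois

/-!
# S32 from S19 (and the interfaces of project GAL)
-/

set_option autoImplicit false
open Polynomial IsLocalRing

namespace Fermat.Agent.S32

open Fermat.Agent.GAL Fermat.Agent.GAL.PC ModularCurve Fermat.Agent.GAL.EigenChar
open Fermat.Agent.S19 (Qb Gam Rl IsEqv)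

local notation "Qbar" => AlgebraicClosure ℚ
local notation "GQ" => (AlgebraicClosure ℚ ≃ₐ[ℚ] AlgebraicClosure ℚ)

/-! ### generalities -/

theorem HasModel.finite {p : ℕ} {X : Type} [AddCommGroup X] [SMul Gam X] (h : HasModel p X) :
    Finite X := by
  obtain ⟨H, _, _, hfin, -, -, e, -, -⟩ := h
  have : Finite (WithConv (H →ₐ[GaloisRep.ratLocalizedAt p] AlgebraicClosure ℚ)) :=
    Finite.of_equiv _ (WithConv.equiv _).symm
  exact Finite.of_equiv _ e

/-- the action on the `a`-torsion. -/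
@[reducible] def torsAction (G J : Type*) [Monoid G] [AddCommGroup J] [DistribMulAction G J] (a : ℤ) :
    DistribMulAction G (Submodule.torsionBy ℤ J a) where
  smul σ x := ⟨σ • x.1, by
    rw [Submodule.mem_torsionBy_iff, smul_comm, (Submodule.mem_torsionBy_iff _ _).1 x.2, smul_zero]⟩
  one_smul x := Subtype.ext (one_smul G x.1)
  mul_smul σ τ x := Subtype.ext (mul_smul σ τ x.1)
  smul_zero σ := Subtype.ext (smul_zero σ)
  smul_add σ x y := Subtype.ext (smul_add σ x.1 y.1)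

theorem coe_sum_tors {G J : Type*} [Monoid G] [AddCommGroup J] [DistribMulAction G J] (a : ℤ)
    (x : G →₀ ℤ) (y : Submodule.torsionBy ℤ J a) :
    letI := torsAction G J a
    (((x.sum fun σ c => c • σ • y) : Submodule.torsionBy ℤ J a) : J) =
      x.sum fun σ c => c • σ • (y : J) := by
  let _ := torsAction G J a
  rw [Finsupp.sum, Finsupp.sum, Submodule.coe_sum]
  rfl

theorem coe_sum_ptors {G J : Type*} [Group G] [AddCommGroup J] [DistribMulAction G J] (p : ℕ)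
    (x : G →₀ ℤ) (y : ptors J p) :
    (((x.sum fun σ c => c • σ • y) : ptors J p) : J) = x.sum fun σ c => c • σ • (y : J) := by
  rw [Finsupp.sum, Finsupp.sum]
  exact map_sum (ptors J p).subtype _ _

theorem sum_ptors_eq_zero {G J : Type*} [Group G] [AddCommGroup J] [DistribMulAction G J] (p : ℕ)
    (x : G →₀ ℤ) (y : ptors J p) (h : (x.sum fun σ c => c • σ • (y : J)) = 0) :
    (x.sum fun σ c => c • σ • y) = 0 :=
  Subtype.ext ((coe_sum_ptors p x y).trans h)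

theorem ptors_nsmul_eq_zero {J : Type*} [AddCommGroup J] (p k : ℕ) (y : ptors J p)
    (h : p ^ k • y = 0) : p ^ k • (y : J) = 0 := congrArg Subtype.val h

/-! ### the Galois side for `J₀(N)` -/

section concrete

variable {N : ℕ} [NeZero N] {p : ℕ}

theorem key_concrete (hp : p.Prime) (S : Finset ℕ) (hpS : p ∈ S)
    (hNS : ∀ q : ℕ, q.Prime → q ∣ N → q ∈ S)
    (hGH : GalHecke N) (hOS : OpenStab N) (hU : ESUnram N p) (hQ : ESQuad N p)
    (hS : ∀ k : ℕ, SUP N (p ^ k))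
    {R : Type} [CommRing R] [IsLocalRing R] (π : CuspForm.heckeAlgebra N 2 (↑S : Set ℕ) →+* R)
    (hpR : (p : R) ∈ maximalIdeal R) (h2 : IsUnit (2 : R)) (ρ : GaloisRepAdic R)
    (habs : ρ.residual.IsAbsolutelyIrreducible)
    (hρ : ∀ ℓ : ℕ, ℓ.Prime → ℓ ∉ (↑S : Set ℕ) → ∀ A : ValuationSubring Qbar, A.LiesOverPrime ℓ →
      ∀ σ : GQ, A.IsFrobeniusAt σ ℓ →
        LinearMap.charpoly (ρ.ρ σ) = X ^ 2 - C (π (heckeT N (↑S : Set ℕ) ℓ)) * X + C ((ℓ : R)))
    (n : ℕ) :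
    ∃ k : ℕ, ∀ x : GQ →₀ ℤ,
      (∀ y : JZero N, p ^ k • y = 0 → (x.sum fun σ c => c • σ • y) = 0) →
      ∀ v : ρ.V, (x.sum fun σ c => c • ρ.ρ σ v) ∈ (maximalIdeal R ^ n) • (⊤ : Submodule R ρ.V) := by
  have hbad : ∀ ℓ : ℕ, ℓ.Prime → ℓ ∉ (↑S : Set ℕ) → ¬ ℓ ∣ N * p := by
    intro ℓ hℓ hℓS hd
    rcases (Nat.Prime.dvd_mul hℓ).mp hd with h | h
    · exact hℓS (hNS ℓ hℓ h)
    · rw [(Nat.prime_dvd_prime_iff_eq hℓ hp).mp h] at hℓS
      exact hℓS hpS
  have hbadN : ∀ ℓ : ℕ, ℓ.Prime → ℓ ∉ (↑S : Set ℕ) → ¬ ℓ ∣ N :=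
    fun ℓ hℓ hℓS hd => hℓS (hNS ℓ hℓ hd)
  obtain ⟨k, hk⟩ :=
    abs32 Fermat.Agent.Cheb.preludeSpec hp S
    {q | q.Prime ∧ q ∣ N * p} ⟨hp, Dvd.intro_left N rfl⟩
    (fun q hq => by
      by_contra hqS
      exact hbad q hq.1 hqS hq.2)
    (J := ptors (JZero N) p) (Tp N p (↑S : Set ℕ)) (Tp_comm hGH hQ hbad)
    (fun ℓ σ x => by
      by_cases h : ℓ.Prime ∧ ℓ ∉ (↑S : Set ℕ)
      · exact Eq.mpr (congrArg (fun T : Module.End ℤ (ptors (JZero N) p) => σ • T x = T (σ • x))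
          (Tp_of_good h.1 h.2))
          (ptors_comm σ (heckeOperatorBar N ⟨ℓ, h.1⟩).toAddMonoidHom x (hGH ⟨ℓ, h.1⟩ σ x.1))
      · exact Eq.mpr (congrArg (fun T : Module.End ℤ (ptors (JZero N) p) => σ • T x = T (σ • x))
          (Tp_of_bad h)) (ptors_comm_zero σ x))
    (fun q hq hqU A hA σ hσ x _ =>
      ptors_fix σ x (hU q hq (fun hd => hqU ⟨hq, hd⟩) A hA σ hσ x.1 x.2))
    (fun ℓ hℓ hℓS A hA σ hσ x _ =>
      Eq.mpr (congrArg (fun T : Module.End ℤ (ptors (JZero N) p) =>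
          σ • σ • x - T (σ • x) + ℓ • x = 0) (Tp_of_good hℓ hℓS))
        (ptors_quad σ (heckeOperatorBar N ⟨ℓ, hℓ⟩).toAddMonoidHom ℓ x
          (hQ ℓ hℓ (hbad ℓ hℓ hℓS) A hA σ hσ x.1 x.2)))
    (fun x _ => by
      obtain ⟨n, hn⟩ := x.2
      obtain ⟨L, hL, h⟩ := hOS (p ^ n) (pow_ne_zero _ hp.ne_zero) x.1 hn
      exact ⟨L, hL, fun σ hσ => ptors_fix σ x (h σ hσ)⟩)
    (heckeT N (↑S : Set ℕ)) (latAct N (↑S : Set ℕ)) (latAct_injective _)
    (fun k => by
      obtain ⟨κ, hκ, hκT⟩ := hS k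
      exact ⟨Xi κ k rfl, Xi_injective κ k rfl hκ, Tp_Xi κ k rfl hκT hbadN⟩)
    π hpR h2 ρ habs hρ n
  exact ⟨k, fun x hx v => hk x (fun y hy =>
    sum_ptors_eq_zero p x y (hx y.1 (ptors_nsmul_eq_zero p k y hy))) v⟩

end concrete

/-! ### the quotients `V / I V` -/

section level

variable {A : Type} [CommRing A] [IsLocalRing A]

theorem levelAction_mk (ρ : GaloisRepAdic A) (I : Ideal A) (σ : GQ) (v : ρ.V) :
    ρ.levelAction I σ (Submodule.Quotient.mk v) = Submodule.Quotient.mk (ρ.ρ σ v) := rfl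

/-- the Galois action on `V / I V`. -/
@[reducible] noncomputable def levelDMA (ρ : GaloisRepAdic A) (I : Ideal A) :
    DistribMulAction GQ (ρ.V ⧸ (I • (⊤ : Submodule A ρ.V))) where
  smul σ x := ρ.levelAction I σ x
  one_smul x := by
    induction x using Submodule.Quotient.induction_on with
    | H v =>
      show ρ.levelAction I 1 (Submodule.Quotient.mk v) = _
      rw [levelAction_mk, map_one, Module.End.one_apply]
  mul_smul σ τ x := by
    induction x using Submodule.Quotient.induction_on with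
    | H v =>
      show ρ.levelAction I (σ * τ) (Submodule.Quotient.mk v) =
        ρ.levelAction I σ (ρ.levelAction I τ (Submodule.Quotient.mk v))
      rw [levelAction_mk, levelAction_mk, levelAction_mk, map_mul, Module.End.mul_apply]
  smul_zero σ := map_zero (ρ.levelAction I σ)
  smul_add σ x y := map_add (ρ.levelAction I σ) x y

theorem sum_level_mk (ρ : GaloisRepAdic A) (I : Ideal A) (x : GQ →₀ ℤ) (v : ρ.V) :
    letI := levelDMA ρ I
    (x.sum fun σ c => c • σ • (Submodule.Quotient.mk v : ρ.V ⧸ (I • (⊤ : Submodule A ρ.V)))) =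
      Submodule.Quotient.mk (x.sum fun σ c => c • ρ.ρ σ v) := by
  let _ := levelDMA ρ I
  rw [Finsupp.sum, Finsupp.sum]
  exact (map_sum (Submodule.mkQ (I • (⊤ : Submodule A ρ.V))) _ _).symm

theorem finite_level (ρ : GaloisRepAdic A) (I : Ideal A) [Finite (A ⧸ I)] :
    Finite (ρ.V ⧸ (I • (⊤ : Submodule A ρ.V))) :=
  Module.finite_of_finite (A ⧸ I)

theorem exists_pow_le_of_finite [IsNoetherianRing A] (I : Ideal A) [Finite (A ⧸ I)] :
    ∃ n : ℕ, maximalIdeal A ^ n ≤ I := by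
  apply Ideal.exists_pow_le_of_le_radical_of_fg _ (IsNoetherian.noetherian _)
  intro x hx
  obtain ⟨a, b, hab, h⟩ := Finite.exists_ne_map_eq_of_infinite
    (fun k : ℕ => Ideal.Quotient.mk I (x ^ k))
  wlog hlt : a < b generalizing a b
  · exact this b a hab.symm h.symm (lt_of_le_of_ne (not_lt.1 hlt) hab.symm)
  obtain ⟨d, rfl⟩ := Nat.exists_eq_add_of_lt hlt
  refine ⟨a, ?_⟩
  have h1 : x ^ a * (1 - x ^ (d + 1)) ∈ I := by
    rw [← Ideal.Quotient.eq_zero_iff_mem]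
    have h' : Ideal.Quotient.mk I (x ^ a) = Ideal.Quotient.mk I (x ^ (a + d + 1)) := h
    rw [mul_sub, mul_one, ← pow_add, map_sub, ← add_assoc, ← h', sub_self]
  have h2 : IsUnit (1 - x ^ (d + 1)) := by
    by_contra hu
    have h3 : 1 - x ^ (d + 1) ∈ maximalIdeal A := (mem_maximalIdeal _).2 hu
    have h4 : x ^ (d + 1) ∈ maximalIdeal A := Ideal.pow_mem_of_mem _ hx _ (Nat.succ_pos d)
    have h5 : (1 : A) ∈ maximalIdeal A := by
      have := Ideal.add_mem _ h3 h4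
      rwa [sub_add_cancel] at this
    exact (Ideal.ne_top_iff_one _).1 (Ideal.IsMaximal.ne_top inferInstance) h5
  exact (Ideal.mul_unit_mem_iff_mem I h2).1 h1

end level

/-! ### S32 -/

section final

variable {p : ℕ} {N : ℕ} [NeZero N] {S : Finset ℕ}
  {𝒪 : Type} [CommRing 𝒪] [IsDomain 𝒪] [IsDiscreteValuationRing 𝒪]
  [IsAdicComplete (IsLocalRing.maximalIdeal 𝒪) 𝒪]
  {θ : CuspForm.heckeAlgebra N 2 (↑S : Set ℕ) →+* IsLocalRing.ResidueField 𝒪}
  {T : Type} [CommRing T] [IsLocalRing T] [IsNoetherianRing T]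
  [IsAdicComplete (IsLocalRing.maximalIdeal T) T] [Algebra 𝒪 T] [IsLocalHom (algebraMap 𝒪 T)]
  [Module.Finite 𝒪 T] [Module.Free 𝒪 T]

/-- **S32 from S19** and the interfaces of project GAL. -/
theorem s32_of_s19
    (h19 : ∀ k : ℕ, ∃ (H : Type) (_ : CommRing H) (_ : HopfAlgebra (GaloisRep.ratLocalizedAt p) H),
      Module.Finite (GaloisRep.ratLocalizedAt p) H ∧ Module.Flat (GaloisRep.ratLocalizedAt p) H ∧
      Coalgebra.IsCocomm (GaloisRep.ratLocalizedAt p) H ∧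
      ∃ e : WithConv (H →ₐ[GaloisRep.ratLocalizedAt p] AlgebraicClosure ℚ) ≃
          ↥(Submodule.torsionBy ℤ (JZero N) ((p : ℤ) ^ k)),
        (∀ f g, e (f * g) = e f + e g) ∧
        ∀ (σ : AlgebraicClosure ℚ ≃ₐ[ℚ] AlgebraicClosure ℚ)
          (f g : WithConv (H →ₐ[GaloisRep.ratLocalizedAt p] AlgebraicClosure ℚ)),
          (∀ h : H, g h = σ (f h)) → ((e g : JZero N)) = σ • (e f : JZero N))
    (hES : ESUnram N p ∧ ESQuad N p) (hS : ∀ k : ℕ, SUP N (p ^ k))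
    [Finite (IsLocalRing.ResidueField 𝒪)]
    (hp : p.Prime) (hp2 : p ≠ 2) (hp𝒪 : (p : 𝒪) ∈ IsLocalRing.maximalIdeal 𝒪)
    (hpS : p ∈ S) (hNS : ∀ q : ℕ, q.Prime → q ∣ N → q ∈ S)
    (H : CuspForm.HeckeGaloisRepDatum N (↑S : Set ℕ) 𝒪 θ T) :
    H.ρ.IsFlatAt p := by
  haveI : Fact p.Prime := ⟨hp⟩
  have hpT : (p : T) ∈ maximalIdeal T := by
    have h1 : (p : T) = algebraMap 𝒪 T (p : 𝒪) := (map_natCast _ _).symm
    rw [h1, mem_maximalIdeal, mem_nonunits_iff]
    intro hu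
    exact (mem_maximalIdeal _).mp hp𝒪 (isUnit_of_map_unit (algebraMap 𝒪 T) _ hu)
  have h2 : IsUnit (2 : T) := by
    by_contra hu
    have h3 : (2 : T) ∈ maximalIdeal T := (mem_maximalIdeal _).2 hu
    obtain ⟨j, hj⟩ := hp.odd_of_ne_two hp2
    have h4 : (1 : T) = (p : T) - 2 * (j : T) := by
      rw [hj]; push_cast; ring
    have h5 : (1 : T) ∈ maximalIdeal T := by
      rw [h4]
      exact Ideal.sub_mem _ hpT (Ideal.mul_mem_right _ _ h3)
    exact (Ideal.ne_top_iff_one _).1 (Ideal.IsMaximal.ne_top inferInstance) h5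
  refine ⟨?_, fun I hI => ?_⟩
  · refine Finite.of_surjective (ResidueField.map (algebraMap 𝒪 T)) fun y => ?_
    obtain ⟨x, hx⟩ := H.residue_surjective y
    exact ⟨residue 𝒪 x, hx⟩
  obtain ⟨n, hn⟩ := exists_pow_le_of_finite I
  obtain ⟨k, hk⟩ := key_concrete hp S hpS hNS (galHecke N) (openStab N) hES.1 hES.2 hS H.π hpT h2
    H.ρ H.residual_absIrr
    (fun ℓ hℓ hℓS A hA σ hσ => by
      have hℓN : ¬ ℓ ∣ N := fun h => hℓS (hNS ℓ hℓ h)
      rw [heckeT_eq hℓ hℓN hℓS]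
      exact H.charpoly_frob ℓ hℓ hℓN hℓS A hA σ hσ) n
  letI i1 := torsAction GQ (JZero N) ((p : ℤ) ^ k)
  letI i2 := levelDMA H.ρ I
  have hX : HasModel p (Submodule.torsionBy ℤ (JZero N) ((p : ℤ) ^ k)) := by
    obtain ⟨H', j1, j2, a1, a2, a3, e, a4, a5⟩ := h19 k
    exact ⟨H', j1, j2, a1, a2, a3, e, a4, fun σ f g hfg => Subtype.ext (a5 σ f g hfg)⟩
  haveI := hX.finite
  haveI := finite_level H.ρ I
  have hZ : HasModel p (H.ρ.V ⧸ (I • (⊤ : Submodule T H.ρ.V))) := by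
    refine (HasOrder.of_annihilator hX.hasOrder fun x hx z => ?_).hasModel
    induction z using Submodule.Quotient.induction_on with
    | H v =>
      rw [sum_level_mk, Submodule.Quotient.mk_eq_zero]
      refine Submodule.smul_mono_left hn (hk x (fun y hy => ?_) v)
      have hy' : y ∈ Submodule.torsionBy ℤ (JZero N) ((p : ℤ) ^ k) := by
        rw [Submodule.mem_torsionBy_iff]
        have : ((p : ℤ) ^ k) • y = (p ^ k : ℕ) • y := by
          rw [← Nat.cast_pow, natCast_zsmul]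
        rw [this, hy]
      have := congrArg Subtype.val (hx ⟨y, hy'⟩)
      rw [coe_sum_tors] at this
      exact this
  exact hZ

end final

end Fermat.Agent.S32
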