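import Mathlib
import Fermat.Prelude.Def_GaloisRep_Flat
import Fermat.Agent.S19.A.Defs

/-!
# S32 : definitions

`X` is a finite abelian group with an additive action of `Gam = Gal(ℚ̄/ℚ)`.

* `HasModel p X` : `X` is, equivariantly, the group of `ℚ̄`-points of a finite flat commutative
  cocommutative Hopf algebra over `ℤ_(p)` (the exact shape of S19 and of `GaloisRepAdic.IsFlatAt`).
* `IsOrder p H`, `HasOrder p X` : the same on the side of functions: `H` is a `ℤ_(p)`-subalgebra of
  `X → ℚ̄`, consisting of equivariant functions, finitely generated as a module, spanning `X → ℚ̄`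
  over `ℚ̄`, stable under "comultiplication" and with `a 0 ∈ ℤ_(p)`.
-/

set_option autoImplicit false

namespace Fermat.Agent.S32

open Fermat.Agent.S19 (Qb Gam Rl IsEqv)

/-- `X` is the group of `ℚ̄`-points of a finite flat group scheme over `ℤ_(p)`. -/
def HasModel (p : ℕ) (X : Type) [AddCommGroup X] [SMul Gam X] : Prop :=
  ∃ (H : Type) (_ : CommRing H) (_ : HopfAlgebra (GaloisRep.ratLocalizedAt p) H),
    Module.Finite (GaloisRep.ratLocalizedAt p) H ∧ Module.Flat (GaloisRep.ratLocalizedAt p) H ∧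
    Coalgebra.IsCocomm (GaloisRep.ratLocalizedAt p) H ∧
    ∃ e : WithConv (H →ₐ[GaloisRep.ratLocalizedAt p] AlgebraicClosure ℚ) ≃ X,
      (∀ f g, e (f * g) = e f + e g) ∧
      ∀ (σ : AlgebraicClosure ℚ ≃ₐ[ℚ] AlgebraicClosure ℚ)
        (f g : WithConv (H →ₐ[GaloisRep.ratLocalizedAt p] AlgebraicClosure ℚ)),
        (∀ h : H, g h = σ (f h)) → e g = σ • e f

/-- a Hopf order inside the algebra of functions on `X`. -/
structure IsOrder (p : ℕ) {X : Type} [AddCommGroup X] [SMul Gam X]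
    (H : Subalgebra (Rl p) (X → Qb)) : Prop where
  eqv : ∀ a ∈ H, IsEqv a
  fg : (Subalgebra.toSubmodule H).FG
  span : Submodule.span Qb (H : Set (X → Qb)) = ⊤
  comul : ∀ a ∈ H, ∃ (n : ℕ) (u v : Fin n → X → Qb), (∀ i, u i ∈ H) ∧ (∀ i, v i ∈ H) ∧
    ∀ x y, a (x + y) = ∑ i, u i x * v i y
  counit : ∀ a ∈ H, a 0 ∈ Set.range (algebraMap (Rl p) Qb)

/-- `X` has a Hopf order. -/
def HasOrder (p : ℕ) (X : Type) [AddCommGroup X] [SMul Gam X] : Prop :=
  ∃ H : Subalgebra (Rl p) (X → Qb), IsOrder p H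

end Fermat.Agent.S32
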