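import Fermat.Agent.S32.Key
import Fermat.Agent.GAL.PC.CoreRaw2
import Fermat.Agent.GAL.PC.GlueAbs
import Fermat.Agent.GAL.PC.S31Wire

/-!
# S32 : the abstract form of the Galois side

Same hypotheses as `GAL.PC.pc_of_abstract` (an abelian group `J` with commuting Hecke and Galois
actions, Eichler-Shimura relations, support interface), plus a representation `ρ` over a local ring
`R` with the corresponding Frobenius characteristic polynomials, residually absolutely irreducible.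
Conclusion: for every `n` there is `k` such that every element of `ℤ[G_ℚ]` which kills `J[p ^ k]`
maps `ρ.V` into `𝔪 ^ n ρ.V`.
-/

set_option autoImplicit false
open Polynomial IsLocalRing

namespace Fermat.Agent.S32

open Fermat.Agent.GAL Fermat.Agent.GAL.PC

local notation "Qbar" => AlgebraicClosure ℚ
local notation "GQ" => (AlgebraicClosure ℚ ≃ₐ[ℚ] AlgebraicClosure ℚ)

theorem abs32 (hC : Fermat.Agent.Cheb.PreludeSpec) {p : ℕ} (hp : p.Prime)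
    (S : Finset ℕ) (U : Set ℕ) (hpU : p ∈ U) (hUS : U ⊆ (↑S : Set ℕ))
    {J : Type*} [AddCommGroup J] [DistribMulAction GQ J]
    (T : ℕ → Module.End ℤ J) (hTcomm : ∀ i j, T i * T j = T j * T i)
    (hGT : ∀ (ℓ : ℕ) (σ : GQ) (x : J), σ • T ℓ x = T ℓ (σ • x))
    (hUnr : ∀ q : ℕ, q.Prime → q ∉ U → ∀ A : ValuationSubring Qbar, A.LiesOverPrime q →
      ∀ σ ∈ A.inertiaSubgroupIn ℚ, ∀ x : J, (∃ n : ℕ, p ^ n • x = 0) → σ • x = x)
    (hFrob : ∀ ℓ : ℕ, ℓ.Prime → ℓ ∉ S → ∀ A : ValuationSubring Qbar, A.LiesOverPrime ℓ →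
      ∀ σ : GQ, A.IsFrobeniusAt σ ℓ → ∀ x : J, (∃ n : ℕ, p ^ n • x = 0) →
        σ • σ • x - T ℓ (σ • x) + ℓ • x = 0)
    (hStab : ∀ x : J, (∃ n : ℕ, p ^ n • x = 0) →
      ∃ L : IntermediateField ℚ Qbar, FiniteDimensional ℚ L ∧
      ∀ σ : GQ, (∀ y ∈ L, σ y = y) → σ • x = x)
    {𝕋 Λ : Type*} [CommRing 𝕋] [AddCommGroup Λ] [Module.Free ℤ Λ] [Module.Finite ℤ Λ]
    (a : ℕ → 𝕋) (lat : 𝕋 →+* Module.End ℤ Λ) (hlat : Function.Injective lat)
    (hSUP : ∀ k : ℕ, ∃ Ξ : (Λ →+ ZMod (p ^ k)) →+ J, Function.Injective Ξ ∧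
      ∀ ℓ ψ, T ℓ (Ξ ψ) = Ξ (ψ.comp (lat (a ℓ)).toAddMonoidHom))
    {R : Type} [CommRing R] [IsLocalRing R] (π : 𝕋 →+* R) (hpR : (p : R) ∈ maximalIdeal R)
    (h2 : IsUnit (2 : R)) (ρ : GaloisRepAdic R) (habs : ρ.residual.IsAbsolutelyIrreducible)
    (hρ : ∀ ℓ : ℕ, ℓ.Prime → ℓ ∉ (↑S : Set ℕ) → ∀ A : ValuationSubring Qbar, A.LiesOverPrime ℓ →
      ∀ σ : GQ, A.IsFrobeniusAt σ ℓ →
        LinearMap.charpoly (ρ.ρ σ) = X ^ 2 - C (π (a ℓ)) * X + C ((ℓ : R))) (n : ℕ) :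
    ∃ k : ℕ, ∀ x : GQ →₀ ℤ, (∀ y : J, p ^ k • y = 0 → (x.sum fun σ c => c • σ • y) = 0) →
      ∀ v : ρ.V, (x.sum fun σ c => c • ρ.ρ σ v) ∈ (maximalIdeal R ^ n) • (⊤ : Submodule R ρ.V) := by
  obtain ⟨f, hf⟩ := exists_ringHom_of_commute T hTcomm
  let _ : Module (MvPolynomial ℕ ℤ) J := Module.compHom J f
  have hsmul : ∀ (P : MvPolynomial ℕ ℤ) (x : J), P • x = f P x := fun _ _ => rfl
  have hcomm : SMulCommClass GQ (MvPolynomial ℕ ℤ) J := ⟨fun σ P x => by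
    rw [hsmul, hsmul]
    induction P using MvPolynomial.induction_on generalizing x with
    | C a =>
      rw [eq_intCast (MvPolynomial.C : ℤ →+* MvPolynomial ℕ ℤ) a, map_intCast,
        Module.End.intCast_apply, Module.End.intCast_apply, smul_comm]
    | add P Q hP hQ => rw [map_add, LinearMap.add_apply, LinearMap.add_apply, smul_add, hP, hQ]
    | mul_X P i hP =>
      rw [map_mul, Module.End.mul_apply, Module.End.mul_apply, hP, hf, hGT]⟩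
  let ev : MvPolynomial ℕ ℤ →+* 𝕋 := (MvPolynomial.aeval a).toRingHom
  have hev : ∀ ℓ, ev (MvPolynomial.X ℓ) = a ℓ := fun ℓ => MvPolynomial.aeval_X _ ℓ
  -- the test set
  obtain ⟨k₀, hk₀⟩ := lattice_lemma lat.range p hp
  have : NeZero (p ^ (n + k₀)) := ⟨pow_ne_zero _ hp.ne_zero⟩
  obtain ⟨Ξ, hΞ, hΞT⟩ := hSUP (n + k₀)
  have := finite_addHom_zmod (Λ := Λ) (p ^ (n + k₀))
  have hXsup : ∀ P : MvPolynomial ℕ ℤ, (∀ x ∈ Set.range Ξ, P • x = 0) →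
      ev P ∈ Ideal.span {((p : 𝕋)) ^ n} := by
    intro P hP
    have h1 := divisible_of_kills f (lat.comp ev) Ξ hΞ (fun i ψ => by
      rw [hf, hΞT, RingHom.comp_apply, hev]) P (fun ψ => hP _ ⟨ψ, rfl⟩)
    obtain ⟨Q, ⟨Q', rfl⟩, hQ⟩ := hk₀ n (lat (ev P)) ⟨_, rfl⟩ h1
    have h2 : ev P = (p : 𝕋) ^ n * Q' := by
      apply hlat
      rw [hQ, map_mul, map_pow, map_natCast, nsmul_eq_mul, Nat.cast_pow]
    rw [h2]
    exact Ideal.mul_mem_right _ _ (Ideal.mem_span_singleton_self _)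
  obtain ⟨k, hk, M, P, c, -, D, hXM, hpc, -⟩ := core_raw2 hC hp S U hpU hUS
    (𝓗 := MvPolynomial ℕ ℤ) (𝕋 := 𝕋) (J := J) (fun ℓ => MvPolynomial.X ℓ) ev hUnr
    (fun ℓ hℓ hS A hA σ hσ x hx => by
      rw [hsmul, hf]
      exact hFrob ℓ hℓ hS A hA σ hσ x hx) hStab n (Set.range Ξ) (Set.finite_range Ξ)
    (by
      rintro _ ⟨ψ, rfl⟩
      refine ⟨n + k₀, ?_⟩
      rw [← map_nsmul]
      have : p ^ (n + k₀) • ψ = 0 := by
        refine AddMonoidHom.ext fun l => ?_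
        rw [AddMonoidHom.nsmul_apply, nsmul_eq_mul, ZMod.natCast_self, zero_mul,
          AddMonoidHom.zero_apply]
      rw [this, map_zero]) hXsup
  refine ⟨k, fun x hx v => ?_⟩
  have h1 := hpc.toIsPrePC.map (quotMap π (maximalIdeal R) p hpR n)
  have h2' := isPrePC_of_rep ρ (↑S : Set ℕ) (fun ℓ => π (a ℓ)) hρ n
  simp only [hev] at h1
  have h3 := IsPrePC.unique hC h2' h1
  refine key_abs D (maximalIdeal R ^ n) (π.comp ev) ?_ ρ.finrank_eq ρ.ρ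
    (span_range_eq_top_of_absIrr ρ habs) ?_ h2 x (fun y hy => hx y (D.tors y hy)) v
  · intro Q hQ
    have h4 := hXsup Q fun x hx => hQ x (hXM x hx)
    obtain ⟨b, hb⟩ := Ideal.mem_span_singleton'.mp h4
    rw [RingHom.comp_apply, ← hb, map_mul, map_pow, map_natCast]
    exact Ideal.mul_mem_left _ _ (Ideal.pow_mem_pow hpR n)
  · intro σ
    have h4 := congrFun h3 σ
    rw [← Ideal.Quotient.eq]
    exact h4

end Fermat.Agent.S32
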