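import Fermat.Agent.S32.Defs
import Fermat.Agent.S19.A.Criterion

/-!
# S32 / F1 : a Hopf order gives a model

* `IsOrder.exists_basis` : `H` is a finitely generated torsion free module over the PID `ℤ_(p)`
  (`S19.isPrincipalIdealRing_Rl`; torsion free because `H ⊆ X → ℚ̄` and `ℤ_(p) → ℚ̄` is injective), so
  it is free: `Module.free_of_finite_type_torsion_free'` / `Module.finBasis`.  The basis consists of
  equivariant functions, independent over `ℤ_(p)`, hence over `ℚ̄`
  (`S19.linearIndependent_of_isEqv_Rl`); it spans because `H` spans.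
* `IsOrder.neg_mem` : NO antipode needed.  By induction on `k ≥ 1`: for all `a ∈ H`,
  `x ↦ a (k • x) ∈ H` (`a ((k+1) • x) = a (k • x + x) = ∑ u i (k • x) * v i x`).  Take
  `k = Nat.card X - 1` if `Nat.card X ≥ 2` (`(card X) • x = 0`), and `X` subsingleton otherwise.
* `HasOrder.hasModel` : `S19.exists_hopf_of_functions` + the last ten lines of
  `S19.exists_model_of_pairing` (equivariance).
-/

set_option autoImplicit false

namespace Fermat.Agent.S32

open Fermat.Agent.S19 (Qb Gam Rl IsEqv)

variable {p : ℕ} [Fact p.Prime] {X : Type} [AddCommGroup X] [Finite X] [DistribMulAction Gam X]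

omit [Finite X] in
theorem IsOrder.exists_basis {H : Subalgebra (Rl p) (X → Qb)} (h : IsOrder p H) :
    ∃ (n : ℕ) (b : Module.Basis (Fin n) (Rl p) H),
      LinearIndependent Qb (fun i => ((b i : H) : X → Qb)) ∧
      Submodule.span Qb (Set.range fun i => ((b i : H) : X → Qb)) = ⊤ := by
  have : Module.Finite (Rl p) H := Module.Finite.iff_fg.mpr h.fg
  have : IsPrincipalIdealRing (Rl p) := Fermat.Agent.S19.isPrincipalIdealRing_Rl p
  have : Module.IsTorsionFree (Rl p) H := by
    refine Module.IsTorsionFree.of_smul_eq_zero fun r m hrm => ?_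
    by_cases hr : r = 0
    · exact Or.inl hr
    · right
      apply Subtype.ext
      funext y
      have h1 : (r • (m : X → Qb)) y = 0 := congrFun (congrArg Subtype.val hrm) y
      have h2 : algebraMap (Rl p) Qb r * (m : X → Qb) y = 0 := by
        rw [← h1, Pi.smul_apply, Algebra.smul_def]
      rcases mul_eq_zero.mp h2 with h3 | h3
      · exfalso
        apply hr
        have h4 : algebraMap ℚ Qb (r : ℚ) = 0 := h3
        exact Subtype.ext ((map_eq_zero _).mp h4)
      · exact h3
  have : Module.Free (Rl p) H := Module.free_of_finite_type_torsion_free'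
  let b := Module.finBasis (Rl p) H
  refine ⟨_, b, Fermat.Agent.S19.linearIndependent_of_isEqv_Rl p _ (fun i => h.eqv _ (b i).2) ?_,
    ?_⟩
  · exact b.linearIndependent.map' H.val.toLinearMap
      (LinearMap.ker_eq_bot.mpr Subtype.val_injective)
  · rw [eq_top_iff, ← h.span]
    refine Submodule.span_le.mpr fun a ha => ?_
    have h1 : a ∈ Submodule.span (Rl p) (Set.range fun i => ((b i : H) : X → Qb)) := by
      rw [Fermat.Agent.S19.Order.span_basis_eq H b]
      exact ha
    exact Submodule.span_le_restrictScalars (Rl p) Qb _ h1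

omit [Finite X] [Fact p.Prime] in
theorem IsOrder.nsmul_mem {H : Subalgebra (Rl p) (X → Qb)} (h : IsOrder p H) (k : ℕ) :
    ∀ a ∈ H, (fun x => a (k • x)) ∈ H := by
  induction k with
  | zero =>
    intro a ha
    obtain ⟨r, hr⟩ := h.counit a ha
    have : (fun x : X => a (0 • x)) = algebraMap (Rl p) (X → Qb) r := by
      funext x
      rw [zero_smul, ← hr]
      rfl
    rw [this]
    exact H.algebraMap_mem r
  | succ k ih =>
    intro a ha
    obtain ⟨n, u, v, hu, hv, huv⟩ := h.comul a ha
    have : (fun x : X => a ((k + 1) • x)) = ∑ i, (fun x => u i (k • x)) * v i := by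
      funext x
      rw [succ_nsmul, huv, Finset.sum_apply]
      rfl
    rw [this]
    exact sum_mem fun i _ => H.mul_mem (ih _ (hu i)) (hv i)

omit [Fact p.Prime] in
theorem IsOrder.neg_mem {H : Subalgebra (Rl p) (X → Qb)} (h : IsOrder p H) :
    ∀ a ∈ H, (fun x => a (-x)) ∈ H := by
  intro a ha
  have h1 := h.nsmul_mem (Nat.card X - 1) a ha
  have h2 : ∀ x : X, (Nat.card X - 1) • x = -x := by
    intro x
    have hpos : 0 < Nat.card X := Nat.card_pos
    have h3 : (Nat.card X - 1 + 1) • x = 0 := by
      rw [Nat.sub_add_cancel hpos]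
      exact card_nsmul_eq_zero'
    rw [succ_nsmul] at h3
    exact eq_neg_of_add_eq_zero_left h3
  simpa only [h2] using h1

theorem HasOrder.hasModel (h : HasOrder p X) : HasModel p X := by
  obtain ⟨H, hH⟩ := h
  obtain ⟨n, b, hb, hspan⟩ := hH.exists_basis
  have hΔ : ∀ a ∈ H, ∃ (n : ℕ) (u v : Fin n → H),
      ∀ x y, a (x + y) = ∑ i, ((u i : H) : X → Qb) x * ((v i : H) : X → Qb) y := by
    intro a ha
    obtain ⟨n, u, v, hu, hv, huv⟩ := hH.comul a ha
    exact ⟨n, fun i => ⟨u i, hu i⟩, fun i => ⟨v i, hv i⟩, huv⟩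
  obtain ⟨H', i1, i2, hfin, hflat, hcoc, j, e', hj, hmul, hev⟩ :=
    Fermat.Agent.S19.exists_hopf_of_functions H b hb hspan hΔ hH.counit hH.neg_mem
  refine ⟨H', i1, i2, hfin, hflat, hcoc, e', hmul, fun σ f g hfg => ?_⟩
  have hg : g = e'.symm (σ • e' f) := by
    apply WithConv.ext
    apply AlgHom.ext
    intro h
    have h1 : g h = σ (f h) := hfg h
    have h2 := hev (e'.symm (σ • e' f)) h
    rw [Equiv.apply_symm_apply] at h2
    have h3 := hH.eqv (j h) (hj h) σ (e' f)
    show g h = (e'.symm (σ • e' f)) h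
    rw [h1, h2, h3, hev f h]
  rw [hg, Equiv.apply_symm_apply]

end Fermat.Agent.S32
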