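import Fermat.Agent.GAL.PC.Core

/-!
# S32 / K1 (see **K1** below) : the key lemma (pure algebra, on top of `GAL.PC.CoreAux.Dat`)

Setting: `D : Dat M m χ P`, i.e. `G` and a commutative ring `𝓗` act on `M` (killed by `m`),
the actions commute and `σ • y + χ(σ) • σ⁻¹ • y = P σ • y` on `M`.
For `x : G →₀ ℤ` write `x • y := x.sum fun σ a => a • σ • y`, `t x := x.sum fun σ a => a • P σ : 𝓗`,
`x* • y := x.sum fun σ a => a • χ(σ) • σ⁻¹ • y`, so that `x • y + x* • y = t x • y`.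

**K1** (`Dat.comm_kill`).  If `x` kills `M` then `h := t x` satisfies `h • (σ τ - τ σ) y = 0`.
 Proof.  (a) `x* • y = h • y`.  (b) For `τ : G` the left translate `x' = τ⁻¹ x`
 (`Finsupp.mapDomain (τ⁻¹ * ·) x`) kills `M`, so `x'* • y = t x' • y`; but
 `x'* • y = χ(τ⁻¹) • x* • (τ • y) = χ(τ⁻¹) • h • τ • y`.  Multiply by `χ(τ)` (`Dat.val_mul`,
 `Dat.val_inv`): `h • τ • y = s τ • y` with `s τ := χ(τ).val • t x' ∈ 𝓗`: `h τ` acts as a SCALAR.
 (c) `h • σ • τ • y = σ • (h • τ • y) = σ • s τ • y = s τ • σ • y = h • τ • σ • y` (apply (b) to `σ • y`).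

**K2** (`Dat.kill_trace_comm`).  If `h • (σ τ - τ σ) y = 0` for all `σ τ`, `y ∈ M`, then
 `h * (P (σ τ σ' τ') - P (σ τ τ' σ') - P (τ σ σ' τ') + P (τ σ τ' σ'))` kills `M`.
 Proof.  `P g • y = g • y + χ(g) • g⁻¹ • y`; the four `χ(g)` are equal (`χ` has commutative values);
 the alternating sum of the `g • y` is `u • (u' • y)`, `u = σ τ - τ σ`, `u' = σ' τ' - τ' σ'`, killed by
 `h`; the alternating sum of the `g⁻¹ • y` is `[τ'⁻¹, σ'⁻¹] • ([τ⁻¹, σ⁻¹] • y)`, killed by `h` too.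

**K3** (`mem_of_comm_trace`, `apply_mem_of_trace`) linear algebra over `T`, `V` free of rank 2,
 `span T (range ρ) = ⊤`.
 (a) `e * tr ([ρ σ, ρ τ] [ρ σ', ρ τ']) ∈ I` for all group elements ⇒ (bilinearity, four times
 `Submodule.span_induction`) `e * tr ([A, B] [A', B']) ∈ I` for all endomorphisms; in a basis take
 `A = A' = E₁₂`, `B = B' = E₂₁`: `[A, B]² = 1`, trace `2`.
 (b) `tr (ρ σ * Z) ∈ I` for all `σ` ⇒ `tr (A * Z) ∈ I` for all `A` ⇒ all matrix entries of `Z` are in `I`.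

**K4** (`key_abs`).  Let `Z := ∑ x_g ρ g`.  For `τ : G`, `x_τ := τ x` kills `M`; K1 + K2 + transfer +
 `htrace` + K3(a) give `ev (t x_τ) ∈ I`, and `tr (ρ τ * Z) ≡ ev (t x_τ)` mod `I`.  K3(b).
-/

set_option autoImplicit false

namespace Fermat.Agent.S32

open Fermat.Agent.GAL.PC.CoreAux

variable {G 𝓗 J : Type*} [Group G] [CommRing 𝓗] [AddCommGroup J] [Module 𝓗 J]
  [DistribMulAction G J] [SMulCommClass G 𝓗 J]
  {M : AddSubgroup J} {m : ℕ} [NeZero m] {χ : G →* (ZMod m)ˣ} {P : G → 𝓗}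

omit [SMulCommClass G 𝓗 J] [NeZero m] in
theorem sum_spec_aux (D : Dat M m χ P) {ι : Type*} (s : Finset ι) (γ : ι → G) (a : ι → ℤ)
    (hk : ∀ y ∈ M, ∑ i ∈ s, a i • γ i • y = 0) :
    ∀ y ∈ M, (∑ i ∈ s, a i • P (γ i)) • y
      = ∑ i ∈ s, a i • ((χ (γ i) : (ZMod m)ˣ) : ZMod m).val • (γ i)⁻¹ • y := by
  intro y hy
  rw [Finset.sum_smul]
  have h1 : ∀ i ∈ s, (a i • P (γ i)) • y =
      a i • γ i • y + a i • ((χ (γ i) : (ZMod m)ˣ) : ZMod m).val • (γ i)⁻¹ • y := by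
    intro i _
    rw [smul_assoc, ← D.spec (γ i) y hy, smul_add]
  rw [Finset.sum_congr rfl h1, Finset.sum_add_distrib, hk y hy, zero_add]

/-- **K1** -/
theorem comm_kill (D : Dat M m χ P) (x : G →₀ ℤ)
    (hx : ∀ y ∈ M, (x.sum fun σ a => a • σ • y) = 0) (σ τ : G) :
    ∀ y ∈ M, (x.sum fun g a => a • P g) • (σ • τ • y - τ • σ • y) = 0 := by
  intro y hy
  set h := x.sum fun g a => a • P g with hh
  have hsum : h = ∑ g ∈ x.support, x g • P g := rfl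
  have hk : ∀ y ∈ M, ∑ g ∈ x.support, x g • g • y = 0 := hx
  have hA : ∀ y ∈ M, h • y =
      ∑ g ∈ x.support, x g • ((χ g : (ZMod m)ˣ) : ZMod m).val • g⁻¹ • y :=
    sum_spec_aux D x.support id x hk
  have hscal : ∀ τ : G, ∃ s : 𝓗, ∀ y ∈ M, h • τ • y = s • y := by
    intro τ
    have hk' : ∀ y ∈ M, ∑ g ∈ x.support, x g • (τ⁻¹ * g) • y = 0 := by
      intro y hy
      have h1 := congrArg (fun z => τ⁻¹ • z) (hk y hy)
      simp only [Finset.smul_sum, smul_zero] at h1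
      rw [← h1]
      refine Finset.sum_congr rfl fun g _ => ?_
      rw [mul_smul, smul_comm]
    have hB := sum_spec_aux D x.support (fun g => τ⁻¹ * g) x hk'
    refine ⟨((χ τ : (ZMod m)ˣ) : ZMod m).val • ∑ g ∈ x.support, x g • P (τ⁻¹ * g),
      fun y hy => ?_⟩
    rw [smul_assoc, hB y hy]
    have hτy : τ • y ∈ M := D.stabG τ y hy
    have h2 : ∑ g ∈ x.support, x g • ((χ (τ⁻¹ * g) : (ZMod m)ˣ) : ZMod m).val • (τ⁻¹ * g)⁻¹ • y
        = ((χ τ⁻¹ : (ZMod m)ˣ) : ZMod m).val • (h • τ • y) := by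
      rw [hA (τ • y) hτy, Finset.smul_sum]
      refine Finset.sum_congr rfl fun g _ => ?_
      rw [mul_inv_rev, inv_inv, mul_smul, D.val_mul τ⁻¹ g (D.stabG _ _ hτy),
        smul_comm (((χ τ⁻¹ : (ZMod m)ˣ) : ZMod m).val) (x g)]
    rw [h2, D.val_inv τ (D.stabH _ _ hτy)]
  obtain ⟨s, hs⟩ := hscal τ
  rw [smul_sub, sub_eq_zero, ← smul_comm σ h, hs y hy, smul_comm σ s,
    ← hs (σ • y) (D.stabG σ y hy)]

end Fermat.Agent.S32
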