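import Fermat.Agent.GAL.PC.Core

/-!
# S32 / K2 (see **K2** below) : the key lemma (pure algebra, on top of `GAL.PC.CoreAux.Dat`)

Setting: `D : Dat M m χ P`, i.e. `G` and a commutative ring `𝓗` act on `M` (killed by `m`),
the actions commute and `σ • y + χ(σ) • σ⁻¹ • y = P σ • y` on `M`.
For `x : G →₀ ℤ` write `x • y := x.sum fun σ a => a • σ • y`, `t x := x.sum fun σ a => a • P σ : 𝓗`,
`x* • y := x.sum fun σ a => a • χ(σ) • σ⁻¹ • y`, so that `x • y + x* • y = t x • y`.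

**K1** (`Dat.comm_kill`).  If `x` kills `M` then `h := t x` satisfies `h • (σ τ - τ σ) y = 0`.
 Proof.  (a) `x* • y = h • y`.  (b) For `τ : G` the left translate `x' = τ⁻¹ x`
 (`Finsupp.mapDomain (τ⁻¹ * ·) x`) kills `M`, so `x'* • y = t x' • y`; but
 `x'* • y = χ(τ⁻¹) • x* • (τ • y) = χ(τ⁻¹) • h • τ • y`.  Multiply by `χ(τ)` (`Dat.val_mul`,
 `Dat.val_inv`): `h • τ • y = s τ • y` with `s τ := χ(τ).val • t x' ∈ 𝓗`: `h τ` acts as a SCALAR.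
 (c) `h • σ • τ • y = σ • (h • τ • y) = σ • s τ • y = s τ • σ • y = h • τ • σ • y` (apply (b) to `σ • y`).

**K2** (`Dat.kill_trace_comm`).  If `h • (σ τ - τ σ) y = 0` for all `σ τ`, `y ∈ M`, then
 `h * (P (σ τ σ' τ') - P (σ τ τ' σ') - P (τ σ σ' τ') + P (τ σ τ' σ'))` kills `M`.
 Proof.  `P g • y = g • y + χ(g) • g⁻¹ • y`; the four `χ(g)` are equal (`χ` has commutative values);
 the alternating sum of the `g • y` is `u • (u' • y)`, `u = σ τ - τ σ`, `u' = σ' τ' - τ' σ'`, killed by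
 `h`; the alternating sum of the `g⁻¹ • y` is `[τ'⁻¹, σ'⁻¹] • ([τ⁻¹, σ⁻¹] • y)`, killed by `h` too.

**K3** (`mem_of_comm_trace`, `apply_mem_of_trace`) linear algebra over `T`, `V` free of rank 2,
 `span T (range ρ) = ⊤`.
 (a) `e * tr ([ρ σ, ρ τ] [ρ σ', ρ τ']) ∈ I` for all group elements ⇒ (bilinearity, four times
 `Submodule.span_induction`) `e * tr ([A, B] [A', B']) ∈ I` for all endomorphisms; in a basis take
 `A = A' = E₁₂`, `B = B' = E₂₁`: `[A, B]² = 1`, trace `2`.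
 (b) `tr (ρ σ * Z) ∈ I` for all `σ` ⇒ `tr (A * Z) ∈ I` for all `A` ⇒ all matrix entries of `Z` are in `I`.

**K4** (`key_abs`).  Let `Z := ∑ x_g ρ g`.  For `τ : G`, `x_τ := τ x` kills `M`; K1 + K2 + transfer +
 `htrace` + K3(a) give `ev (t x_τ) ∈ I`, and `tr (ρ τ * Z) ≡ ev (t x_τ)` mod `I`.  K3(b).
-/

set_option autoImplicit false

namespace Fermat.Agent.S32

open Fermat.Agent.GAL.PC.CoreAux

variable {G 𝓗 J : Type*} [Group G] [CommRing 𝓗] [AddCommGroup J] [Module 𝓗 J]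
  [DistribMulAction G J] [SMulCommClass G 𝓗 J]
  {M : AddSubgroup J} {m : ℕ} [NeZero m] {χ : G →* (ZMod m)ˣ} {P : G → 𝓗}

/-- **K2** -/
theorem kill_trace_comm (D : Dat M m χ P) (h : 𝓗)
    (hh : ∀ σ τ : G, ∀ y ∈ M, h • (σ • τ • y - τ • σ • y) = 0) (σ τ σ' τ' : G) :
    ∀ y ∈ M, (h * (P (σ * τ * σ' * τ') - P (σ * τ * τ' * σ') - P (τ * σ * σ' * τ')
      + P (τ * σ * τ' * σ'))) • y = 0 := by
  intro y hy
  have h2 : χ (σ * τ * τ' * σ') = χ (σ * τ * σ' * τ') := by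
    simp only [map_mul]; ac_rfl
  have h3 : χ (τ * σ * σ' * τ') = χ (σ * τ * σ' * τ') := by
    simp only [map_mul]; ac_rfl
  have h4 : χ (τ * σ * τ' * σ') = χ (σ * τ * σ' * τ') := by
    simp only [map_mul]; ac_rfl
  set n : ℕ := ((χ (σ * τ * σ' * τ') : (ZMod m)ˣ) : ZMod m).val with hn
  have hw : σ' • τ' • y - τ' • σ' • y ∈ M :=
    M.sub_mem (D.stabG _ _ (D.stabG _ _ hy)) (D.stabG _ _ (D.stabG _ _ hy))
  have hw' : τ⁻¹ • σ⁻¹ • y - σ⁻¹ • τ⁻¹ • y ∈ M :=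
    M.sub_mem (D.stabG _ _ (D.stabG _ _ hy)) (D.stabG _ _ (D.stabG _ _ hy))
  have e : (P (σ * τ * σ' * τ') - P (σ * τ * τ' * σ') - P (τ * σ * σ' * τ')
      + P (τ * σ * τ' * σ')) • y =
      (σ • τ • (σ' • τ' • y - τ' • σ' • y) - τ • σ • (σ' • τ' • y - τ' • σ' • y)) +
      n • (τ'⁻¹ • σ'⁻¹ • (τ⁻¹ • σ⁻¹ • y - σ⁻¹ • τ⁻¹ • y)
        - σ'⁻¹ • τ'⁻¹ • (τ⁻¹ • σ⁻¹ • y - σ⁻¹ • τ⁻¹ • y)) := by
    simp only [sub_smul, add_smul, ← D.spec _ y hy, h2, h3, h4, ← hn]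
    simp only [mul_smul, mul_inv_rev, smul_sub]
    abel
  rw [mul_smul, e, smul_add, hh σ τ _ hw, zero_add, smul_comm, hh τ'⁻¹ σ'⁻¹ _ hw', smul_zero]

end Fermat.Agent.S32
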