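import Mathlib

/-!
# S32 / K3 (see **K3** below) : the key lemma (pure algebra, on top of `GAL.PC.CoreAux.Dat`)

Setting: `D : Dat M m χ P`, i.e. `G` and a commutative ring `𝓗` act on `M` (killed by `m`),
the actions commute and `σ • y + χ(σ) • σ⁻¹ • y = P σ • y` on `M`.
For `x : G →₀ ℤ` write `x • y := x.sum fun σ a => a • σ • y`, `t x := x.sum fun σ a => a • P σ : 𝓗`,
`x* • y := x.sum fun σ a => a • χ(σ) • σ⁻¹ • y`, so that `x • y + x* • y = t x • y`.

**K1** (`Dat.comm_kill`).  If `x` kills `M` then `h := t x` satisfies `h • (σ τ - τ σ) y = 0`.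
 Proof.  (a) `x* • y = h • y`.  (b) For `τ : G` the left translate `x' = τ⁻¹ x`
 (`Finsupp.mapDomain (τ⁻¹ * ·) x`) kills `M`, so `x'* • y = t x' • y`; but
 `x'* • y = χ(τ⁻¹) • x* • (τ • y) = χ(τ⁻¹) • h • τ • y`.  Multiply by `χ(τ)` (`Dat.val_mul`,
 `Dat.val_inv`): `h • τ • y = s τ • y` with `s τ := χ(τ).val • t x' ∈ 𝓗`: `h τ` acts as a SCALAR.
 (c) `h • σ • τ • y = σ • (h • τ • y) = σ • s τ • y = s τ • σ • y = h • τ • σ • y` (apply (b) to `σ • y`).

**K2** (`Dat.kill_trace_comm`).  If `h • (σ τ - τ σ) y = 0` for all `σ τ`, `y ∈ M`, then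
 `h * (P (σ τ σ' τ') - P (σ τ τ' σ') - P (τ σ σ' τ') + P (τ σ τ' σ'))` kills `M`.
 Proof.  `P g • y = g • y + χ(g) • g⁻¹ • y`; the four `χ(g)` are equal (`χ` has commutative values);
 the alternating sum of the `g • y` is `u • (u' • y)`, `u = σ τ - τ σ`, `u' = σ' τ' - τ' σ'`, killed by
 `h`; the alternating sum of the `g⁻¹ • y` is `[τ'⁻¹, σ'⁻¹] • ([τ⁻¹, σ⁻¹] • y)`, killed by `h` too.

**K3** (`mem_of_comm_trace`, `apply_mem_of_trace`) linear algebra over `T`, `V` free of rank 2,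
 `span T (range ρ) = ⊤`.
 (a) `e * tr ([ρ σ, ρ τ] [ρ σ', ρ τ']) ∈ I` for all group elements ⇒ (bilinearity, four times
 `Submodule.span_induction`) `e * tr ([A, B] [A', B']) ∈ I` for all endomorphisms; in a basis take
 `A = A' = E₁₂`, `B = B' = E₂₁`: `[A, B]² = 1`, trace `2`.
 (b) `tr (ρ σ * Z) ∈ I` for all `σ` ⇒ `tr (A * Z) ∈ I` for all `A` ⇒ all matrix entries of `Z` are in `I`.

**K4** (`key_abs`).  Let `Z := ∑ x_g ρ g`.  For `τ : G`, `x_τ := τ x` kills `M`; K1 + K2 + transfer +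
 `htrace` + K3(a) give `ev (t x_τ) ∈ I`, and `tr (ρ τ * Z) ≡ ev (t x_τ)` mod `I`.  K3(b).
-/

set_option autoImplicit false

namespace Fermat.Agent.S32

variable {G : Type*} [Group G]

variable {T V : Type*} [CommRing T] [AddCommGroup V] [Module T V] [Module.Free T V]
  [Module.Finite T V]

namespace K3Aux

omit [Module.Free T V] [Module.Finite T V] in
theorem mem_of_linear (ρ : G →* Module.End T V)
    (hspan : Submodule.span T (Set.range ρ) = ⊤) (I : Ideal T)
    (f : Module.End T V →ₗ[T] T) (hf : ∀ σ, f (ρ σ) ∈ I) (A : Module.End T V) : f A ∈ I := by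
  have hA : A ∈ Submodule.span T (Set.range ρ) := by rw [hspan]; exact Submodule.mem_top
  induction hA using Submodule.span_induction with
  | mem x hx =>
    obtain ⟨σ, rfl⟩ := hx
    exact hf σ
  | zero => rw [map_zero]; exact I.zero_mem
  | add x y _ _ hx hy => rw [map_add]; exact I.add_mem hx hy
  | smul c x _ hx => rw [map_smul, smul_eq_mul]; exact I.mul_mem_left c hx

end K3Aux

open K3Aux

/-- **K3 (a)** -/
theorem mem_of_comm_trace (hV : Module.finrank T V = 2) (ρ : G →* Module.End T V)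
    (hspan : Submodule.span T (Set.range ρ) = ⊤) (I : Ideal T) (h2 : IsUnit (2 : T)) (e : T)
    (h : ∀ σ τ σ' τ' : G, e * LinearMap.trace T V
      ((ρ σ * ρ τ - ρ τ * ρ σ) * (ρ σ' * ρ τ' - ρ τ' * ρ σ')) ∈ I) : e ∈ I := by
  rcases subsingleton_or_nontrivial T with hT | hT
  · rw [Subsingleton.elim e 0]; exact I.zero_mem
  have s1 : ∀ (A : Module.End T V) (τ σ' τ' : G), e * LinearMap.trace T V
      ((A * ρ τ - ρ τ * A) * (ρ σ' * ρ τ' - ρ τ' * ρ σ')) ∈ I := by
    intro A τ σ' τ'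
    exact mem_of_linear ρ hspan I
      (e • ((LinearMap.trace T V) ∘ₗ (LinearMap.mulRight T (ρ σ' * ρ τ' - ρ τ' * ρ σ')) ∘ₗ
        (LinearMap.mulRight T (ρ τ) - LinearMap.mulLeft T (ρ τ))))
      (fun σ => by simpa using h σ τ σ' τ') A
  have s2 : ∀ (A B : Module.End T V) (σ' τ' : G), e * LinearMap.trace T V
      ((A * B - B * A) * (ρ σ' * ρ τ' - ρ τ' * ρ σ')) ∈ I := by
    intro A B σ' τ'
    exact mem_of_linear ρ hspan I
      (e • ((LinearMap.trace T V) ∘ₗ (LinearMap.mulRight T (ρ σ' * ρ τ' - ρ τ' * ρ σ')) ∘ₗ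
        (LinearMap.mulLeft T A - LinearMap.mulRight T A)))
      (fun τ => by simpa using s1 A τ σ' τ') B
  have s3 : ∀ (A B A' : Module.End T V) (τ' : G), e * LinearMap.trace T V
      ((A * B - B * A) * (A' * ρ τ' - ρ τ' * A')) ∈ I := by
    intro A B A' τ'
    exact mem_of_linear ρ hspan I
      (e • ((LinearMap.trace T V) ∘ₗ (LinearMap.mulLeft T (A * B - B * A)) ∘ₗ
        (LinearMap.mulRight T (ρ τ') - LinearMap.mulLeft T (ρ τ'))))
      (fun σ' => by simpa using s2 A B σ' τ') A'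
  have s4 : ∀ (A B A' B' : Module.End T V), e * LinearMap.trace T V
      ((A * B - B * A) * (A' * B' - B' * A')) ∈ I := by
    intro A B A' B'
    exact mem_of_linear ρ hspan I
      (e • ((LinearMap.trace T V) ∘ₗ (LinearMap.mulLeft T (A * B - B * A)) ∘ₗ
        (LinearMap.mulLeft T A' - LinearMap.mulRight T A')))
      (fun τ' => by simpa using s3 A B A' τ') B'
  let b : Module.Basis (Fin 2) T V := Module.finBasisOfFinrankEq T V hV
  let Φ := LinearMap.toMatrixAlgEquiv b
  let A : Module.End T V := Φ.symm !![0, 1; 0, 0]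
  let B : Module.End T V := Φ.symm !![0, 0; 1, 0]
  have hAB : (A * B - B * A) * (A * B - B * A) = 1 := by
    apply Φ.injective
    simp only [map_mul, map_sub, map_one, A, B, AlgEquiv.apply_symm_apply]
    ext i j
    fin_cases i <;> fin_cases j <;> simp [Matrix.mul_apply, Fin.sum_univ_two]
  have h5 := s4 A B A B
  rw [hAB, LinearMap.trace_one, hV] at h5
  obtain ⟨u, hu⟩ := h2
  have : e = (e * ((2 : ℕ) : T)) * (↑u⁻¹ : T) := by
    rw [mul_assoc]
    have : ((2 : ℕ) : T) * (↑u⁻¹ : T) = 1 := by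
      rw [Nat.cast_ofNat, ← hu]; exact u.mul_inv
    rw [this, mul_one]
  rw [this]
  exact I.mul_mem_right _ h5

/-- **K3 (b)** -/
theorem apply_mem_of_trace (ρ : G →* Module.End T V)
    (hspan : Submodule.span T (Set.range ρ) = ⊤) (I : Ideal T) (Z : Module.End T V)
    (h : ∀ σ : G, LinearMap.trace T V (ρ σ * Z) ∈ I) (v : V) :
    Z v ∈ I • (⊤ : Submodule T V) := by
  classical
  have s1 : ∀ A : Module.End T V, LinearMap.trace T V (A * Z) ∈ I := by
    intro A
    exact mem_of_linear ρ hspan I ((LinearMap.trace T V) ∘ₗ (LinearMap.mulRight T Z))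
      (fun σ => by simpa using h σ) A
  let b := Module.Free.chooseBasis T V
  let Φ := LinearMap.toMatrixAlgEquiv b
  have hent : ∀ i j, Φ Z i j ∈ I := by
    intro i j
    have h1 := s1 (Φ.symm (Matrix.single j i 1))
    rw [LinearMap.trace_eq_matrix_trace T b] at h1
    have h2 : LinearMap.toMatrix b b (Φ.symm (Matrix.single j i 1) * Z)
        = Matrix.single j i 1 * Φ Z := by
      have : LinearMap.toMatrix b b (Φ.symm (Matrix.single j i 1) * Z)
          = Φ (Φ.symm (Matrix.single j i 1) * Z) := rfl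
      rw [this, map_mul, AlgEquiv.apply_symm_apply]
    rw [h2, Matrix.trace_single_mul] at h1
    simpa using h1
  have hb : ∀ j, Z (b j) ∈ I • (⊤ : Submodule T V) := by
    intro j
    have : Z (b j) = ∑ i, (Φ Z i j) • b i := by
      have h3 := b.sum_repr (Z (b j))
      rw [← h3]
      refine Finset.sum_congr rfl (fun i _ => ?_)
      rw [(LinearMap.toMatrixAlgEquiv_apply b Z i j).symm]
    rw [this]
    exact Submodule.sum_mem _ (fun i _ => Submodule.smul_mem_smul (hent i j) Submodule.mem_top)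
  have hv := b.sum_repr v
  rw [← hv, map_sum]
  refine Submodule.sum_mem _ (fun j _ => ?_)
  rw [map_smul]
  exact Submodule.smul_mem _ _ (hb j)

end Fermat.Agent.S32
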