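import Fermat.Agent.S32.K1
import Fermat.Agent.S32.K2
import Fermat.Agent.S32.K3

/-!
# S32 / K4 (see **K4** below) : the key lemma (pure algebra, on top of `GAL.PC.CoreAux.Dat`)

Setting: `D : Dat M m χ P`, i.e. `G` and a commutative ring `𝓗` act on `M` (killed by `m`),
the actions commute and `σ • y + χ(σ) • σ⁻¹ • y = P σ • y` on `M`.
For `x : G →₀ ℤ` write `x • y := x.sum fun σ a => a • σ • y`, `t x := x.sum fun σ a => a • P σ : 𝓗`,
`x* • y := x.sum fun σ a => a • χ(σ) • σ⁻¹ • y`, so that `x • y + x* • y = t x • y`.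

**K1** (`Dat.comm_kill`).  If `x` kills `M` then `h := t x` satisfies `h • (σ τ - τ σ) y = 0`.
 Proof.  (a) `x* • y = h • y`.  (b) For `τ : G` the left translate `x' = τ⁻¹ x`
 (`Finsupp.mapDomain (τ⁻¹ * ·) x`) kills `M`, so `x'* • y = t x' • y`; but
 `x'* • y = χ(τ⁻¹) • x* • (τ • y) = χ(τ⁻¹) • h • τ • y`.  Multiply by `χ(τ)` (`Dat.val_mul`,
 `Dat.val_inv`): `h • τ • y = s τ • y` with `s τ := χ(τ).val • t x' ∈ 𝓗`: `h τ` acts as a SCALAR.
 (c) `h • σ • τ • y = σ • (h • τ • y) = σ • s τ • y = s τ • σ • y = h • τ • σ • y` (apply (b) to `σ • y`).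

**K2** (`Dat.kill_trace_comm`).  If `h • (σ τ - τ σ) y = 0` for all `σ τ`, `y ∈ M`, then
 `h * (P (σ τ σ' τ') - P (σ τ τ' σ') - P (τ σ σ' τ') + P (τ σ τ' σ'))` kills `M`.
 Proof.  `P g • y = g • y + χ(g) • g⁻¹ • y`; the four `χ(g)` are equal (`χ` has commutative values);
 the alternating sum of the `g • y` is `u • (u' • y)`, `u = σ τ - τ σ`, `u' = σ' τ' - τ' σ'`, killed by
 `h`; the alternating sum of the `g⁻¹ • y` is `[τ'⁻¹, σ'⁻¹] • ([τ⁻¹, σ⁻¹] • y)`, killed by `h` too.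

**K3** (`mem_of_comm_trace`, `apply_mem_of_trace`) linear algebra over `T`, `V` free of rank 2,
 `span T (range ρ) = ⊤`.
 (a) `e * tr ([ρ σ, ρ τ] [ρ σ', ρ τ']) ∈ I` for all group elements ⇒ (bilinearity, four times
 `Submodule.span_induction`) `e * tr ([A, B] [A', B']) ∈ I` for all endomorphisms; in a basis take
 `A = A' = E₁₂`, `B = B' = E₂₁`: `[A, B]² = 1`, trace `2`.
 (b) `tr (ρ σ * Z) ∈ I` for all `σ` ⇒ `tr (A * Z) ∈ I` for all `A` ⇒ all matrix entries of `Z` are in `I`.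

**K4** (`key_abs`).  Let `Z := ∑ x_g ρ g`.  For `τ : G`, `x_τ := τ x` kills `M`; K1 + K2 + transfer +
 `htrace` + K3(a) give `ev (t x_τ) ∈ I`, and `tr (ρ τ * Z) ≡ ev (t x_τ)` mod `I`.  K3(b).
-/

set_option autoImplicit false

namespace Fermat.Agent.S32

open Fermat.Agent.GAL.PC.CoreAux

variable {G 𝓗 J : Type*} [Group G] [CommRing 𝓗] [AddCommGroup J] [Module 𝓗 J]
  [DistribMulAction G J] [SMulCommClass G 𝓗 J]
  {M : AddSubgroup J} {m : ℕ} [NeZero m] {χ : G →* (ZMod m)ˣ} {P : G → 𝓗}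

variable {T V : Type*} [CommRing T] [AddCommGroup V] [Module T V] [Module.Free T V]
  [Module.Finite T V]

/-- if `x` kills `M` then `ev (t x) ∈ I`. -/
theorem ev_mem_of_kill (D : Dat M m χ P) (I : Ideal T) (ev : 𝓗 →+* T)
    (htr : ∀ Q : 𝓗, (∀ y ∈ M, Q • y = 0) → ev Q ∈ I)
    (hV : Module.finrank T V = 2) (ρ : G →* Module.End T V)
    (hspan : Submodule.span T (Set.range ρ) = ⊤)
    (htrace : ∀ σ : G, LinearMap.trace T V (ρ σ) - ev (P σ) ∈ I) (h2 : IsUnit (2 : T))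
    (x : G →₀ ℤ) (hx : ∀ y ∈ M, (x.sum fun σ a => a • σ • y) = 0) :
    ev (x.sum fun g a => a • P g) ∈ I := by
  refine mem_of_comm_trace hV ρ hspan I h2 _ fun σ τ σ' τ' => ?_
  have h1 := htr _ (kill_trace_comm D _ (comm_kill D x hx) σ τ σ' τ')
  rw [map_mul] at h1
  have h3 : LinearMap.trace T V ((ρ σ * ρ τ - ρ τ * ρ σ) * (ρ σ' * ρ τ' - ρ τ' * ρ σ')) =
      LinearMap.trace T V (ρ (σ * τ * σ' * τ')) - LinearMap.trace T V (ρ (σ * τ * τ' * σ')) -
      LinearMap.trace T V (ρ (τ * σ * σ' * τ')) + LinearMap.trace T V (ρ (τ * σ * τ' * σ')) := by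
    simp only [map_mul, ← map_sub, ← map_add]
    congr 1
    noncomm_ring
  rw [h3]
  have h4 : ev (x.sum fun g a => a • P g) *
      (LinearMap.trace T V (ρ (σ * τ * σ' * τ')) - LinearMap.trace T V (ρ (σ * τ * τ' * σ')) -
      LinearMap.trace T V (ρ (τ * σ * σ' * τ')) + LinearMap.trace T V (ρ (τ * σ * τ' * σ'))) =
      ev (x.sum fun g a => a • P g) * ev (P (σ * τ * σ' * τ') - P (σ * τ * τ' * σ') -
        P (τ * σ * σ' * τ') + P (τ * σ * τ' * σ')) +
      ev (x.sum fun g a => a • P g) *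
      ((LinearMap.trace T V (ρ (σ * τ * σ' * τ')) - ev (P (σ * τ * σ' * τ'))) -
       (LinearMap.trace T V (ρ (σ * τ * τ' * σ')) - ev (P (σ * τ * τ' * σ'))) -
       (LinearMap.trace T V (ρ (τ * σ * σ' * τ')) - ev (P (τ * σ * σ' * τ'))) +
       (LinearMap.trace T V (ρ (τ * σ * τ' * σ')) - ev (P (τ * σ * τ' * σ')))) := by
    simp only [map_sub, map_add]
    ring
  rw [h4]
  exact I.add_mem h1 (I.mul_mem_left _ (I.add_mem (I.sub_mem (I.sub_mem (htrace _) (htrace _))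
    (htrace _)) (htrace _)))

/-- **K4** : the key lemma. -/
theorem key_abs (D : Dat M m χ P) (I : Ideal T) (ev : 𝓗 →+* T)
    (htr : ∀ Q : 𝓗, (∀ y ∈ M, Q • y = 0) → ev Q ∈ I)
    (hV : Module.finrank T V = 2) (ρ : G →* Module.End T V)
    (hspan : Submodule.span T (Set.range ρ) = ⊤)
    (htrace : ∀ σ : G, LinearMap.trace T V (ρ σ) - ev (P σ) ∈ I) (h2 : IsUnit (2 : T))
    (x : G →₀ ℤ) (hx : ∀ y ∈ M, (x.sum fun σ a => a • σ • y) = 0) (v : V) :
    (x.sum fun σ a => a • ρ σ v) ∈ I • (⊤ : Submodule T V) := by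
  have hZ : (x.sum fun σ a => a • ρ σ v) = (x.sum fun σ a => a • ρ σ) v := by
    simp only [Finsupp.sum, LinearMap.sum_apply, LinearMap.smul_apply]
  rw [hZ]
  refine apply_mem_of_trace ρ hspan I _ (fun τ => ?_) v
  -- the translate of `x`
  have hx' : ∀ y ∈ M, ((Finsupp.mapDomain (τ * ·) x).sum fun σ a => a • σ • y) = 0 := by
    intro y hy
    rw [Finsupp.sum_mapDomain_index (h := fun σ (a : ℤ) => a • σ • y) (fun _ => zero_smul _ _)
      (fun _ _ _ => add_smul _ _ _)]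
    have h1 : (x.sum fun g a => a • (τ * g) • y) = τ • (x.sum fun g a => a • g • y) := by
      rw [Finsupp.smul_sum]
      refine Finsupp.sum_congr fun g _ => ?_
      rw [mul_smul, smul_comm]
    rw [h1, hx y hy, smul_zero]
  have h1 := ev_mem_of_kill D I ev htr hV ρ hspan htrace h2 _ hx'
  rw [Finsupp.sum_mapDomain_index (h := fun g (a : ℤ) => a • P g) (fun _ => zero_smul _ _)
    (fun _ _ _ => add_smul _ _ _)] at h1
  have h3 : LinearMap.trace T V (ρ τ * x.sum fun σ a => a • ρ σ) -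
      ev (x.sum fun g a => a • P (τ * g)) =
      x.sum fun g a => a • (LinearMap.trace T V (ρ (τ * g)) - ev (P (τ * g))) := by
    simp only [Finsupp.sum, Finset.mul_sum, map_sum, mul_smul_comm, map_zsmul, ← map_mul,
      smul_sub, Finset.sum_sub_distrib]
  have h4 : (x.sum fun g a => a • (LinearMap.trace T V (ρ (τ * g)) - ev (P (τ * g)))) ∈ I :=
    I.sum_mem fun g _ => by
      show x g • (LinearMap.trace T V (ρ (τ * g)) - ev (P (τ * g))) ∈ I
      rw [zsmul_eq_mul]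
      exact I.mul_mem_left _ (htrace _)
  rw [← h3] at h4
  have := I.add_mem h4 h1
  rwa [sub_add_cancel] at this

end Fermat.Agent.S32
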