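import Fermat.Agent.S32.Defs

/-!
# S32 / F3a : Hopf orders pass to (equivariant) subgroups

`φ : X' → X` injective, additive, equivariant.  `H' := H.map (pull φ)`, `pull φ a = a ∘ φ`
(an `ℤ_(p)`-algebra map `(X → ℚ̄) → (X' → ℚ̄)`, also `ℚ̄`-linear and SURJECTIVE since `φ` is injective:
extend a function by zero, `Function.extend`).  All five fields are immediate:
`span` : the image of a spanning set under a surjective linear map spans
(`Submodule.map_span`, `Submodule.map_top`, `LinearMap.range_eq_top`).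
-/

set_option autoImplicit false

namespace Fermat.Agent.S32

open Fermat.Agent.S19 (Qb Gam Rl IsEqv)

variable {p : ℕ} {X X' : Type} [AddCommGroup X] [DistribMulAction Gam X]
  [AddCommGroup X'] [DistribMulAction Gam X']

theorem HasOrder.of_injective (φ : X' →+ X) (hφ : Function.Injective φ)
    (hσ : ∀ (σ : Gam) (x : X'), φ (σ • x) = σ • φ x) (h : HasOrder p X) : HasOrder p X' := by
  classical
  obtain ⟨H, hH⟩ := h
  let pull : (X → Qb) →ₐ[Rl p] (X' → Qb) := AlgHom.pi (fun x' => Pi.evalAlgHom (Rl p) _ (φ x'))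
  have hpull : ∀ a x', pull a x' = a (φ x') := fun _ _ => rfl
  refine ⟨H.map pull, ?_, ?_, ?_, ?_, ?_⟩
  · rintro _ ⟨a, ha, rfl⟩ σ y
    change a (φ (σ • y)) = σ (a (φ y))
    rw [hσ, hH.eqv a ha]
  · have h1 : Subalgebra.toSubmodule (H.map pull) =
        Submodule.map pull.toLinearMap (Subalgebra.toSubmodule H) := by
      ext a
      simp
    rw [h1]
    exact hH.fg.map _
  · let pullL : (X → Qb) →ₗ[Qb] (X' → Qb) := LinearMap.funLeft Qb Qb φ
    have hsurj : Function.Surjective pullL := LinearMap.funLeft_surjective_of_injective Qb Qb φ hφ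
    have h1 : ((H.map pull : Subalgebra (Rl p) (X' → Qb)) : Set (X' → Qb)) =
        pullL '' (H : Set (X → Qb)) := by
      ext a
      simp only [Subalgebra.coe_map]
      rfl
    rw [h1, ← Submodule.map_span, hH.span, Submodule.map_top, LinearMap.range_eq_top]
    exact hsurj
  · rintro _ ⟨a, ha, rfl⟩
    obtain ⟨n, u, v, hu, hv, huv⟩ := hH.comul a ha
    refine ⟨n, fun i => pull (u i), fun i => pull (v i), fun i => ⟨_, hu i, rfl⟩,
      fun i => ⟨_, hv i, rfl⟩, fun x y => ?_⟩
    change a (φ (x + y)) = _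
    rw [map_add, huv]
    rfl
  · rintro _ ⟨a, ha, rfl⟩
    change a (φ 0) ∈ _
    rw [map_zero]
    exact hH.counit a ha

end Fermat.Agent.S32
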